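import Fermat.Agent.S36.Abs.Steps
import Fermat.Agent.S36.Abs.SepCusp

/-!
# RIB / (CTRL) : `[RES-HOR]`, the abstract half of (K-TOT)

`D : GeomDatum R K F` (the three-component model of `X₀(L l²)` of S36).  If `g` is a unit on the three
components and `m ∣ ord_P g` at every horizontal place (`Hor K m g`), then the reduction of `g` on the
component `i` has a divisor divisible by `m` : `m ∣ ord_Q (red_i g)` at **every** place `Q` of the residue
field of the component (triple points and cusps included: the model is locally factorial, `ld₁`, `ld₂`).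

Proof.  `W` a valuation ring of the residue field `E` containing the constants.  The composite valuation ring
`V' = ρ⁻¹(W)` of `F` contains `R` and `t` or `t⁻¹`, hence the chart `B = intCl R t^{±1}`.  Let `𝔭` be its
centre on `B` and `𝔫 ⊇ 𝔭` maximal.  `LD` at `𝔫` : `h ^ m * g * t' = s`, `s, t' ∉ 𝔫`, so `ρ s`, `ρ t'` are
units of `W`.
-/

set_option autoImplicit false

namespace Fermat.Agent.RIB

open Fermat.Agent.S36

section Comp

variable {F : Type*} [Field F] {E : Type*} [Field E]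

/-- the composite of a valuation ring `O` of `F` and of a valuation ring `W` of its residue field -/
def resHorComp (O : ValuationSubring F) (ρ : O →+* E)
    (hρ : ∀ x : O, ρ x = 0 ↔ O.valuation (x : F) < 1) (W : ValuationSubring E) :
    ValuationSubring F where
  carrier := {x | ∃ hx : x ∈ O, ρ ⟨x, hx⟩ ∈ W}
  mul_mem' := by
    rintro a b ⟨ha, ha'⟩ ⟨hb, hb'⟩
    refine ⟨O.mul_mem _ _ ha hb, ?_⟩
    have : (⟨a * b, O.mul_mem _ _ ha hb⟩ : O) = ⟨a, ha⟩ * ⟨b, hb⟩ := rfl
    rw [this, map_mul]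
    exact W.mul_mem _ _ ha' hb'
  one_mem' := by
    refine ⟨O.one_mem, ?_⟩
    have : (⟨1, O.one_mem⟩ : O) = 1 := rfl
    rw [this, map_one]
    exact W.one_mem
  add_mem' := by
    rintro a b ⟨ha, ha'⟩ ⟨hb, hb'⟩
    refine ⟨O.add_mem _ _ ha hb, ?_⟩
    have : (⟨a + b, O.add_mem _ _ ha hb⟩ : O) = ⟨a, ha⟩ + ⟨b, hb⟩ := rfl
    rw [this, map_add]
    exact W.add_mem _ _ ha' hb'
  zero_mem' := by
    refine ⟨O.zero_mem, ?_⟩
    have : (⟨0, O.zero_mem⟩ : O) = 0 := rfl
    rw [this, map_zero]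
    exact W.zero_mem
  neg_mem' := by
    rintro a ⟨ha, ha'⟩
    refine ⟨O.neg_mem _ ha, ?_⟩
    have : (⟨-a, O.neg_mem _ ha⟩ : O) = -⟨a, ha⟩ := rfl
    rw [this, map_neg]
    exact W.neg_mem _ ha'
  mem_or_inv_mem' := by
    intro x
    by_cases hx0 : x = 0
    · left
      subst hx0
      refine ⟨O.zero_mem, ?_⟩
      have : (⟨0, O.zero_mem⟩ : O) = 0 := rfl
      rw [this, map_zero]
      exact W.zero_mem
    rcases lt_trichotomy (O.valuation x) 1 with h | h | h
    · left
      have hx : x ∈ O := (O.valuation_le_one_iff x).1 h.le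
      refine ⟨hx, ?_⟩
      rw [(hρ ⟨x, hx⟩).2 h]
      exact W.zero_mem
    · have hx : x ∈ O := (O.valuation_le_one_iff x).1 h.le
      have hxi : x⁻¹ ∈ O := (O.valuation_le_one_iff _).1 (by rw [map_inv₀, h, inv_one])
      have hmul : ρ ⟨x, hx⟩ * ρ ⟨x⁻¹, hxi⟩ = 1 := by
        rw [← map_mul]
        have : (⟨x, hx⟩ * ⟨x⁻¹, hxi⟩ : O) = 1 := Subtype.ext (mul_inv_cancel₀ hx0)
        rw [this, map_one]
      rcases W.mem_or_inv_mem (ρ ⟨x, hx⟩) with hW | hW
      · exact Or.inl ⟨hx, hW⟩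
      · right
        refine ⟨hxi, ?_⟩
        rwa [eq_inv_of_mul_eq_one_right hmul]
    · right
      have h' : O.valuation x⁻¹ < 1 := by
        rw [map_inv₀]
        exact inv_lt_one_of_one_lt₀ h
      have hx : x⁻¹ ∈ O := (O.valuation_le_one_iff _).1 h'.le
      refine ⟨hx, ?_⟩
      rw [(hρ ⟨x⁻¹, hx⟩).2 h']
      exact W.zero_mem

theorem mem_resHorComp {O : ValuationSubring F} {ρ : O →+* E}
    {hρ : ∀ x : O, ρ x = 0 ↔ O.valuation (x : F) < 1} {W : ValuationSubring E} {x : F} :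
    x ∈ resHorComp O ρ hρ W ↔ ∃ hx : x ∈ O, ρ ⟨x, hx⟩ ∈ W := Iff.rfl

/-- one chart : `LD` on a subring `B` of the composite valuation ring gives the divisibility at `W`. -/
theorem resHor_chart (O : ValuationSubring F) (ρ : O →+* E)
    (hρ : ∀ x : O, ρ x = 0 ↔ O.valuation (x : F) < 1) (W : ValuationSubring E)
    (B : Subring F) (hB : B ≤ (resHorComp O ρ hρ W).toSubring) {m : ℕ} (hm : m ≠ 0) {g : F}
    (hg : O.valuation g = 1) (hLD : LD B m g) :
    ∃ hb : E, hb ≠ 0 ∧
      W.valuation (hb ^ m * ρ ⟨g, (O.valuation_le_one_iff g).1 hg.le⟩) = 1 := by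
  classical
  have hBO : ∀ b : B, (b : F) ∈ O := fun b => (hB b.2).1
  have hBW : ∀ b : B, ρ ⟨(b : F), hBO b⟩ ∈ W := fun b => (hB b.2).2
  -- the ring hom `B → E`
  let φ : B →+* E := ρ.comp
    { toFun := fun b => (⟨(b : F), hBO b⟩ : O)
      map_one' := rfl
      map_mul' := fun _ _ => rfl
      map_zero' := rfl
      map_add' := fun _ _ => rfl }
  have hφ : ∀ b : B, φ b = ρ ⟨(b : F), hBO b⟩ := fun _ => rfl
  have hφW : ∀ b : B, W.valuation (φ b) ≤ 1 := fun b =>
    (W.valuation_le_one_iff _).2 (hBW b)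
  -- the centre
  let 𝔭 : Ideal B :=
    { carrier := {b | W.valuation (φ b) < 1}
      add_mem' := by
        intro a b ha hb
        change W.valuation (φ (a + b)) < 1
        rw [map_add]
        exact lt_of_le_of_lt (W.valuation.map_add _ _) (max_lt ha hb)
      zero_mem' := by
        change W.valuation (φ 0) < 1
        rw [map_zero, map_zero]
        exact zero_lt_one
      smul_mem' := by
        intro c b hb
        change W.valuation (φ (c * b)) < 1
        rw [map_mul, map_mul]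
        calc W.valuation (φ c) * W.valuation (φ b) ≤ 1 * W.valuation (φ b) := by
              gcongr
              exact hφW c
          _ < 1 := by rwa [one_mul] }
  have h𝔭 : ∀ b : B, b ∈ 𝔭 ↔ W.valuation (φ b) < 1 := fun _ => Iff.rfl
  have hne : 𝔭 ≠ ⊤ := by
    intro h
    have h1 : (1 : B) ∈ 𝔭 := by rw [h]; trivial
    rw [h𝔭, map_one, map_one] at h1
    exact lt_irrefl _ h1
  obtain ⟨𝔫, h𝔫, hle⟩ := Ideal.exists_le_maximal 𝔭 hne
  obtain ⟨h, hh0, s, t', hs, ht', e⟩ := hLD 𝔫 h𝔫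
  have hs1 : W.valuation (φ s) = 1 :=
    le_antisymm (hφW s) (not_lt.1 fun hlt => hs (hle ((h𝔭 s).2 hlt)))
  have ht1 : W.valuation (φ t') = 1 :=
    le_antisymm (hφW t') (not_lt.1 fun hlt => ht' (hle ((h𝔭 t').2 hlt)))
  have hval : ∀ b : B, W.valuation (φ b) = 1 → O.valuation (b : F) = 1 := by
    intro b hb
    refine le_antisymm ((O.valuation_le_one_iff _).2 (hBO b)) (not_lt.1 fun hlt => ?_)
    have : φ b = 0 := (hρ ⟨(b : F), hBO b⟩).2 hlt
    rw [this, map_zero] at hb
    exact zero_ne_one hb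
  have hsO := hval s hs1
  have htO := hval t' ht1
  have hhm : O.valuation h ^ m = 1 := by
    have := congrArg O.valuation e
    rw [map_mul, map_mul, map_pow, hg, htO, hsO, mul_one, mul_one] at this
    exact this
  have hh1 : O.valuation h = 1 := (pow_eq_one_iff_of_nonneg zero_le hm).1 hhm
  have hhO : h ∈ O := (O.valuation_le_one_iff h).1 hh1.le
  have hgO : g ∈ O := (O.valuation_le_one_iff g).1 hg.le
  have e' : ρ ⟨h, hhO⟩ ^ m * ρ ⟨g, hgO⟩ * φ t' = φ s := by
    rw [hφ, hφ, ← map_pow, ← map_mul, ← map_mul]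
    congr 1
    exact Subtype.ext e
  refine ⟨ρ ⟨h, hhO⟩, ?_, ?_⟩
  · intro h0
    have := (hρ ⟨h, hhO⟩).1 h0
    rw [show ((⟨h, hhO⟩ : O) : F) = h from rfl, hh1] at this
    exact lt_irrefl _ this
  · have := congrArg W.valuation e'
    rw [map_mul, ht1, hs1, mul_one] at this
    exact this

end Comp

variable {R K F : Type*} [CommRing R] [IsDomain R] [IsDiscreteValuationRing R]
    [Field K] [Algebra R K] [IsFractionRing R K]
    [Field F] [CharZero F] [Algebra R F] [Algebra K F] [IsScalarTower R K F]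

/-- **[RES-HOR]** : `g` a unit on the three components, `Hor K m g` ⟹ `m ∣ ord_Q (red_i g)` at every place
`Q` (valuation ring `W` containing the constants) of the residue field of the component `i`. -/
theorem resHor (D : GeomDatum R K F) {m : ℕ} (hm : m ≠ 0) {g : F}
    (hv : ∀ i, (D.O i).valuation g = 1) (hhor : Hor K m g) (i : Fin 3)
    {E : Type*} [Field E] (ρ : D.O i →+* E)
    (hρ : ∀ x : D.O i, ρ x = 0 ↔ (D.O i).valuation (x : F) < 1) (W : ValuationSubring E)
    (hW : ∀ r : R, ρ ⟨algebraMap R F r, (D.sys.gauss i).const r⟩ ∈ W) :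
    ∃ hb : E, hb ≠ 0 ∧
      W.valuation (hb ^ m * ρ ⟨g, ((D.O i).valuation_le_one_iff g).1 (hv i).le⟩) = 1 := by
  have hR : ∀ r : R, algebraMap R F r ∈ resHorComp (D.O i) ρ hρ W := fun r =>
    ⟨(D.sys.gauss i).const r, hW r⟩
  rcases (resHorComp (D.O i) ρ hρ W).mem_or_inv_mem D.t with ht | ht
  · exact resHor_chart (D.O i) ρ hρ W (intCl R D.t) (intCl_le_of_mem hR ht) hm (hv i)
      (D.ld₁ hm hv hhor)
  · exact resHor_chart (D.O i) ρ hρ W (intCl R D.t⁻¹) (intCl_le_of_mem hR ht) hm (hv i)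
      (D.ld₂ hm hv hhor)

end Fermat.Agent.RIB
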