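import Fermat.Agent.RIB.Ctrl.Alg

/-!
# RIB / CTRL : `[CTRL-MAIN]`, abstract form

`G` a group acting on two abelian groups `JX` (`= J₀(L l²)`) and `JY` (`= J₀(L)`), `I ≤ G` (inertia at `l`), `s : G`
normalising `I` (a Frobenius lift), `io i : JY → JX` equivariant (the three degeneracy maps).

`KapHyp` = the geometric statements (K0), (K-TOT), (K-INJ), (K-KER), (K-IOTA) about ONE relation `Kp x y`
(`x ∈ JX`, `y ∈ JY³`).  `ctrl_main` deduces from them (via `ctrl_alg`), for `m = p ^ k`, `p ∣ l - 1`, `p ∤ a² - 4`: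

* every `I`-fixed `x ∈ JX[m]` killed by `(s² - a s + l)^N` is `∑ io i (v i)` with `v i ∈ JY[m]` killed by `(s² - a s + l)^N`;
* `v ↦ ∑ io i (v i)` is injective on such `v`.
-/

set_option autoImplicit false

namespace Fermat.Agent.RIB

section Act

variable {G J : Type*} [Group G] [AddCommGroup J] [DistribMulAction G J]

/-- the action of `s` as a `ℤ`-linear endomorphism -/
def actEnd (J : Type*) [AddCommGroup J] [DistribMulAction G J] (s : G) : Module.End ℤ J :=
  (DistribSMul.toAddMonoidHom J s).toIntLinearMap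

@[simp] theorem actEnd_apply (s : G) (x : J) : actEnd J s x = s • x := rfl

/-- `s² - a s + l` -/
def frobP (J : Type*) [AddCommGroup J] [DistribMulAction G J] (s : G) (a l : ℤ) : Module.End ℤ J :=
  actEnd J s ^ 2 - a • actEnd J s + l • 1

theorem frobP_apply (s : G) (a l : ℤ) (x : J) :
    frobP J s a l x = s • s • x - a • s • x + l • x := by
  simp [frobP, pow_two]

theorem smul_nsmul_comm' (s : G) (n : ℕ) (x : J) : s • (n • x) = n • (s • x) :=
  map_nsmul (DistribSMul.toAddMonoidHom J s) n x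

theorem smul_zsmul_comm' (s : G) (n : ℤ) (x : J) : s • (n • x) = n • (s • x) :=
  map_zsmul (DistribSMul.toAddMonoidHom J s) n x

end Act

/-- the geometric statements on the relation `Kp`. -/
structure KapHyp {G JX JY : Type*} [Group G] [AddCommGroup JX] [AddCommGroup JY]
    [DistribMulAction G JX] [DistribMulAction G JY] (I : Subgroup G) (s : G) (m l : ℕ)
    (io : Fin 3 → JY →+ JX) (Kp : JX → (Fin 3 → JY) → Prop) : Prop where
  zero : Kp 0 0
  add : ∀ {x y x' y'}, Kp x y → Kp x' y' → Kp (x + x') (y + y')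
  neg : ∀ {x y}, Kp x y → Kp (-x) (-y)
  smul : ∀ {x y}, Kp x y → Kp (s • x) (fun i => s • y i)
  tot : ∀ x, m • x = 0 → (∀ τ ∈ I, τ • x = x) → ∃ y, (∀ i, m • y i = 0) ∧ Kp (s • s • x - x) y
  inj : ∀ y, (∀ i, m • y i = 0) → Kp 0 y → y = 0
  ker : ∀ x, m • x = 0 → (∀ τ ∈ I, τ • x = x) → Kp x 0 → s • s • x = (l ^ 2) • x
  iota : ∀ v : Fin 3 → JY, (∀ i, m • v i = 0) →
    Kp (s • s • ∑ i, io i (v i))
      ![s • s • v 0 + l • s • v 1 + l ^ 2 • v 2, s • s • v 0 + l • s • v 1 + s • s • v 2,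
        l ^ 2 • v 0 + l • s • v 1 + s • s • v 2]

section Main

variable {G JX JY : Type*} [Group G] [AddCommGroup JX] [AddCommGroup JY]
    [DistribMulAction G JX] [DistribMulAction G JY]

/-- the `I`-fixed `m`-torsion -/
def fixTors (J : Type*) [AddCommGroup J] [DistribMulAction G J] (I : Subgroup G) (m : ℕ) :
    AddSubgroup J where
  carrier := {x | m • x = 0 ∧ ∀ τ ∈ I, τ • x = x}
  zero_mem' := ⟨smul_zero _, fun _ _ => smul_zero _⟩
  add_mem' := by
    rintro a b ⟨ha, ha'⟩ ⟨hb, hb'⟩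
    exact ⟨by rw [smul_add, ha, hb, add_zero], fun τ hτ => by rw [smul_add, ha' τ hτ, hb' τ hτ]⟩
  neg_mem' := by
    rintro a ⟨ha, ha'⟩
    exact ⟨by rw [smul_neg, ha, neg_zero], fun τ hτ => by rw [smul_neg, ha' τ hτ]⟩

theorem smul_mem_fixTors {J : Type*} [AddCommGroup J] [DistribMulAction G J] {I : Subgroup G}
    {m : ℕ} {s : G} (hsI : ∀ τ ∈ I, s⁻¹ * τ * s ∈ I) {x : J} (hx : x ∈ fixTors J I m) :
    s • x ∈ fixTors J I m := by
  refine ⟨by rw [← smul_nsmul_comm', hx.1, smul_zero], fun τ hτ => ?_⟩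
  have h := hx.2 _ (hsI τ hτ)
  calc τ • s • x = s • ((s⁻¹ * τ * s) • x) := by
        rw [← mul_smul, ← mul_smul]; congr 1; group
    _ = s • x := by rw [h]

/-- the action of `s` on the `I`-fixed `m`-torsion -/
def fixEnd (J : Type*) [AddCommGroup J] [DistribMulAction G J] (I : Subgroup G) (m : ℕ) (s : G)
    (hsI : ∀ τ ∈ I, s⁻¹ * τ * s ∈ I) : Module.End ℤ (fixTors J I m) :=
  AddMonoidHom.toIntLinearMap
    { toFun := fun x => ⟨s • x.1, smul_mem_fixTors hsI x.2⟩
      map_zero' := Subtype.ext (smul_zero s)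
      map_add' := fun x y => Subtype.ext (smul_add s x.1 y.1) }

theorem coe_fixEnd {J : Type*} [AddCommGroup J] [DistribMulAction G J] (I : Subgroup G) (m : ℕ)
    (s : G) (hsI : ∀ τ ∈ I, s⁻¹ * τ * s ∈ I) (x : fixTors J I m) :
    ((fixEnd J I m s hsI x : fixTors J I m) : J) = s • (x : J) := rfl

theorem coe_fixEnd_poly {J : Type*} [AddCommGroup J] [DistribMulAction G J] (I : Subgroup G)
    (m : ℕ) (s : G) (hsI : ∀ τ ∈ I, s⁻¹ * τ * s ∈ I) (a l : ℤ) (N : ℕ) (x : fixTors J I m) :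
    ((((fixEnd J I m s hsI ^ 2 - a • fixEnd J I m s hsI + l • 1) ^ N :
      Module.End ℤ (fixTors J I m)) x : fixTors J I m) : J) = (frobP J s a l ^ N) (x : J) := by
  induction N generalizing x with
  | zero => rfl
  | succ N ih =>
    rw [pow_succ _ N, pow_succ _ N, Module.End.mul_apply, Module.End.mul_apply, ih]
    congr 1

/-- **[CTRL-MAIN]**, abstract form. -/
theorem ctrl_main (I : Subgroup G) (s : G) (hsI : ∀ τ ∈ I, s⁻¹ * τ * s ∈ I)
    (io : Fin 3 → JY →+ JX) (hio : ∀ i (g : G) y, io i (g • y) = g • io i y)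
    (p k N l : ℕ) (a : ℤ) (hl : (p : ℤ) ∣ (l : ℤ) - 1) (ha : IsCoprime (p : ℤ) (a ^ 2 - 4))
    (hY : ∀ y : JY, p ^ k • y = 0 → ∀ τ ∈ I, τ • y = y)
    (Kp : JX → (Fin 3 → JY) → Prop) (H : KapHyp I s (p ^ k) l io Kp) :
    (∀ x : JX, p ^ k • x = 0 → (∀ τ ∈ I, τ • x = x) → (frobP JX s a l ^ N) x = 0 →
      ∃ v : Fin 3 → JY, (∀ i, p ^ k • v i = 0 ∧ (frobP JY s a l ^ N) (v i) = 0) ∧
        x = ∑ i, io i (v i)) ∧
    (∀ v : Fin 3 → JY, (∀ i, p ^ k • v i = 0 ∧ (frobP JY s a l ^ N) (v i) = 0) →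
      ∑ i, io i (v i) = 0 → v = 0) := by
  set m := p ^ k with hm
  -- the maps `io` on the subgroups
  have hio_mem : ∀ i (y : fixTors JY I m), io i y.1 ∈ fixTors JX I m := fun i y =>
    ⟨by rw [← map_nsmul, y.2.1, map_zero], fun τ hτ => by rw [← hio, y.2.2 τ hτ]⟩
  let ioS : Fin 3 → fixTors JY I m →+ fixTors JX I m := fun i =>
    { toFun := fun y => ⟨io i y.1, hio_mem i y⟩
      map_zero' := Subtype.ext (map_zero _)
      map_add' := fun y z => Subtype.ext (map_add _ _ _) }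
  let sX := fixEnd JX I m s hsI
  let sY := fixEnd JY I m s hsI
  let Kap : AddSubgroup (fixTors JX I m × (Fin 3 → fixTors JY I m)) :=
    { carrier := {z | Kp z.1.1 (fun i => (z.2 i).1)}
      zero_mem' := H.zero
      add_mem' := fun {z w} hz hw => H.add hz hw
      neg_mem' := fun {z} hz => H.neg hz }
  have coe_sum : ∀ v : Fin 3 → fixTors JY I m,
      ((∑ i, ioS i (v i) : fixTors JX I m) : JX) = ∑ i, io i (v i).1 := by
    intro v
    rw [AddSubgroup.val_finsetSum]
    rfl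
  have key := ctrl_alg sX sY ioS (fun i y => Subtype.ext (hio i s y.1)) Kap
    (fun z hz => H.smul hz) p k N a (l : ℤ) hl ha
    (fun x => by
      obtain ⟨y, hy, hK⟩ := H.tot x.1 x.2.1 x.2.2
      exact ⟨fun i => ⟨y i, hy i, hY _ (hy i)⟩, hK⟩)
    (fun y hy => by
      have := H.inj (fun i => (y i).1) (fun i => (y i).2.1) hy
      funext i
      exact Subtype.ext (congrFun this i))
    (fun x hx => by
      have := H.ker x.1 x.2.1 x.2.2 hx
      apply Subtype.ext
      show s • s • x.1 - ((l : ℤ) ^ 2 • x : fixTors JX I m).1 = 0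
      rw [this, sub_eq_zero]
      have e : ((l : ℤ) ^ 2 • x : fixTors JX I m).1 = (l : ℤ) ^ 2 • x.1 := rfl
      rw [e]
      have e2 : ((l : ℤ) ^ 2) = ((l ^ 2 : ℕ) : ℤ) := by push_cast; rfl
      rw [e2, natCast_zsmul])
    (fun v => by
      have := H.iota (fun i => (v i).1) (fun i => (v i).2.1)
      show Kp _ _
      have e1 : ((sX (sX (∑ i, ioS i (v i))) : fixTors JX I m) : JX) =
          s • s • ∑ i, io i (v i).1 := by
        rw [coe_fixEnd, coe_fixEnd, coe_sum]
      have e2 : (fun i => ((![sY (sY (v 0)) + (l : ℤ) • sY (v 1) + (l : ℤ) ^ 2 • v 2,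
          sY (sY (v 0)) + (l : ℤ) • sY (v 1) + sY (sY (v 2)),
          (l : ℤ) ^ 2 • v 0 + (l : ℤ) • sY (v 1) + sY (sY (v 2))] i : fixTors JY I m) : JY)) =
          ![s • s • (v 0).1 + l • s • (v 1).1 + l ^ 2 • (v 2).1,
            s • s • (v 0).1 + l • s • (v 1).1 + s • s • (v 2).1,
            l ^ 2 • (v 0).1 + l • s • (v 1).1 + s • s • (v 2).1] := by
        have c2 : ((l : ℤ) ^ 2) = ((l ^ 2 : ℕ) : ℤ) := by push_cast; rfl
        funext i
        fin_cases i <;>
          simp only [Fin.zero_eta, Fin.mk_one, Fin.reduceFinMk, Matrix.cons_val_zero,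
            Matrix.cons_val_one, Matrix.cons_val_two, AddSubgroup.coe_add,
            c2, natCast_zsmul] <;> rfl
      rw [e1, e2]
      exact this)
  refine ⟨fun x hx hI hP => ?_, fun v hv h0 => ?_⟩
  · obtain ⟨v, hv, hxv⟩ := key.1 ⟨x, hx, hI⟩ (Subtype.ext hx) (by
      apply Subtype.ext
      rw [coe_fixEnd_poly]
      exact hP)
    refine ⟨fun i => (v i).1, fun i => ⟨(v i).2.1, ?_⟩, ?_⟩
    · have := congrArg Subtype.val (hv i).2
      rw [coe_fixEnd_poly] at this
      exact this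
    · have := congrArg Subtype.val hxv
      rw [coe_sum] at this
      exact this
  · have := key.2 (fun i => ⟨v i, (hv i).1, hY _ (hv i).1⟩)
      (fun i => ⟨Subtype.ext (hv i).1, by
        apply Subtype.ext
        rw [coe_fixEnd_poly]
        exact (hv i).2⟩)
      (by
        apply Subtype.ext
        rw [coe_sum]
        exact h0)
    funext i
    exact congrArg Subtype.val (congrFun this i)

end Main

end Fermat.Agent.RIB

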