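import Fermat.Agent.S36.Abs.Steps

/-!
# RIB / CTRL : `[Z36]`  a semilinear automorphism acts on the "toric" classes of the three-component datum through its
action on the roots of unity

`D : GeomDatum R K F` (S36).  `Sg : F ≃+* F` a ring automorphism, semilinear over `SgR : R ≃+* R`, which fixes the
coordinate `t`, the three components `O i` and the triple points of the first chart (`IsSig`).
In the application `Sg = σ ^ 2`, `σ` a Frobenius lift.  If `SgR z = z ^ a` on `μ_m(R)` then for every `h` with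
`h ≡ 1` on the three components and `m ∣ div h` (`Hor`) :  `Sg h = c * h ^ a * x ^ m`   (`z36`).

Proof.  `e := (m - 1) a`, `g := Sg h * h ^ e`.  `u₀ ∈ M(h)`, `u₀ ≡ 1` on the component `0`, `u₀ ≡ b i` on the component `i`,
`b i ∈ B₁`; at a triple point `𝔪` : `b i ≡ z` with `z ∈ μ_m(R)`.  `U₀ := Sg u₀ * u₀ ^ e ∈ M(g)`, `U₀ ≡ 1` on the
component `0`, `U₀ ≡ Sg (b i) * b i ^ e ≡ z ^ a z ^ e = 1` at `𝔪`.  So `g` is glued with the constants `1`
(`StepGAux.key`), and `trivial_of_glued` applies.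
-/

set_option autoImplicit false
set_option linter.unusedSectionVars false

open Polynomial

namespace Fermat.Agent.RIB

open Fermat.Agent.S36

variable {R K F : Type*} [CommRing R] [IsDomain R] [IsDiscreteValuationRing R]
    [Field K] [Algebra R K] [IsFractionRing R K]
    [Field F] [CharZero F] [Algebra R F] [Algebra K F] [IsScalarTower R K F]

/-- a semilinear automorphism of the three-component datum which fixes the components and the triple points. -/
structure IsSig (D : GeomDatum R K F) (Sg : F ≃+* F) (SgR : R ≃+* R) : Prop where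
  map_R : ∀ r : R, Sg (algebraMap R F r) = algebraMap R F (SgR r)
  map_t : Sg D.t = D.t
  map_O : ∀ (i : Fin 3) (x : F), Sg x ∈ D.O i ↔ x ∈ D.O i
  fix : ∀ 𝔪 : Ideal (intCl R D.t), 𝔪.IsMaximal → (∀ i, D.sys.p i ≤ 𝔪) →
    ∀ b b' : intCl R D.t, (b' : F) = Sg (b : F) → b ∈ 𝔪 → b' ∈ 𝔪

section Gen

omit [CharZero F] [IsDomain R] [IsDiscreteValuationRing R] [Algebra R F] [Algebra K F]
  [IsScalarTower R K F] [IsFractionRing R K] [Algebra R K] [Field K] [CommRing R] in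
theorem val_lt_one_of_ringEquiv {V V' : ValuationSubring F} (Sg : F ≃+* F)
    (h : ∀ x : F, Sg x ∈ V' → x ∈ V) {x : F} (hx : V.valuation x < 1) :
    V'.valuation (Sg x) < 1 := by
  by_contra hcon
  push Not at hcon
  have hS0 : Sg x ≠ 0 := by
    intro h0
    rw [h0, map_zero] at hcon
    exact absurd hcon (not_le.2 zero_lt_one)
  have hx0 : x ≠ 0 := fun h0 => hS0 (by rw [h0, map_zero])
  have h1 : V'.valuation (Sg x⁻¹) ≤ 1 := by
    rw [map_inv₀, map_inv₀]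
    exact inv_le_one_of_one_le₀ hcon
  have h2 : x⁻¹ ∈ V := h _ ((V'.valuation_le_one_iff _).1 h1)
  have h3 : V.valuation x⁻¹ ≤ 1 := (V.valuation_le_one_iff _).2 h2
  rw [map_inv₀] at h3
  have h4 : V.valuation x ≠ 0 := (V.valuation.ne_zero_iff).2 hx0
  have h5 : 1 ≤ V.valuation x := (inv_le_one₀ (zero_lt_iff.2 h4)).1 h3
  exact absurd hx (not_lt.2 h5)

omit [CharZero F] [IsDomain R] [IsDiscreteValuationRing R] [Algebra R F] [Algebra K F]
  [IsScalarTower R K F] [IsFractionRing R K] [Algebra R K] [Field K] [CommRing R] in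
theorem val_eq_one_of_ringEquiv {V V' : ValuationSubring F} (Sg : F ≃+* F)
    (h : ∀ x : F, x ∈ V → Sg x ∈ V') {x : F} (hx : V.valuation x = 1) :
    V'.valuation (Sg x) = 1 := by
  have h1 : V'.valuation (Sg x) ≤ 1 :=
    (V'.valuation_le_one_iff _).2 (h _ ((V.valuation_le_one_iff _).1 hx.le))
  have h2 : V'.valuation (Sg x⁻¹) ≤ 1 :=
    (V'.valuation_le_one_iff _).2 (h _ ((V.valuation_le_one_iff _).1 (by rw [map_inv₀, hx, inv_one])))
  have hx0 : x ≠ 0 := by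
    rintro rfl
    simp at hx
  have hS0 : Sg x ≠ 0 := by
    rw [Ne, map_eq_zero_iff _ Sg.injective]
    exact hx0
  rw [map_inv₀, map_inv₀] at h2
  have h4 : V'.valuation (Sg x) ≠ 0 := (V'.valuation.ne_zero_iff).2 hS0
  exact le_antisymm h1 ((inv_le_one₀ (zero_lt_iff.2 h4)).1 h2)

omit [CharZero F] [IsDomain R] [IsDiscreteValuationRing R] [Algebra R F]
  [IsScalarTower R K F] [IsFractionRing R K] [Algebra R K] [CommRing R] in
theorem hor_mul {m : ℕ} {g₁ g₂ : F} (h₁ : Hor K m g₁) (h₂ : Hor K m g₂) : Hor K m (g₁ * g₂) := by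
  intro W hW
  obtain ⟨y₁, hy₁, e₁⟩ := h₁ W hW
  obtain ⟨y₂, hy₂, e₂⟩ := h₂ W hW
  refine ⟨y₁ * y₂, mul_ne_zero hy₁ hy₂, ?_⟩
  have : (y₁ * y₂) ^ m * (g₁ * g₂) = (y₁ ^ m * g₁) * (y₂ ^ m * g₂) := by ring
  rw [this, map_mul, e₁, e₂, one_mul]

omit [CharZero F] [IsDomain R] [IsDiscreteValuationRing R] [Algebra R F]
  [IsScalarTower R K F] [IsFractionRing R K] [Algebra R K] [CommRing R] in
theorem hor_pow {m : ℕ} {g : F} (h : Hor K m g) (n : ℕ) : Hor K m (g ^ n) := by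
  intro W hW
  obtain ⟨y, hy, e⟩ := h W hW
  refine ⟨y ^ n, pow_ne_zero _ hy, ?_⟩
  have : (y ^ n) ^ m * g ^ n = (y ^ m * g) ^ n := by ring
  rw [this, map_pow, e, one_pow]

end Gen

namespace IsSig

variable {D : GeomDatum R K F} {Sg : F ≃+* F} {SgR : R ≃+* R}

theorem val_lt (H : IsSig D Sg SgR) (i : Fin 3) {x : F} (hx : (D.O i).valuation x < 1) :
    (D.O i).valuation (Sg x) < 1 :=
  val_lt_one_of_ringEquiv Sg (fun x => (H.map_O i x).1) hx

theorem val_le (H : IsSig D Sg SgR) (i : Fin 3) {x : F} (hx : (D.O i).valuation x ≤ 1) :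
    (D.O i).valuation (Sg x) ≤ 1 :=
  ((D.O i).valuation_le_one_iff _).2 ((H.map_O i x).2 (((D.O i).valuation_le_one_iff _).1 hx))

theorem map_adjoin (H : IsSig D Sg SgR) {x : F} (hx : x ∈ Algebra.adjoin R {D.t}) :
    Sg x ∈ Algebra.adjoin R {D.t} := by
  induction hx using Algebra.adjoin_induction with
  | mem x hx =>
    rw [Set.mem_singleton_iff] at hx
    rw [hx, H.map_t]
    exact Algebra.subset_adjoin (Set.mem_singleton _)
  | algebraMap r =>
    rw [H.map_R]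
    exact Subalgebra.algebraMap_mem _ _
  | add x y _ _ hx hy =>
    rw [map_add]
    exact add_mem hx hy
  | mul x y _ _ hx hy =>
    rw [map_mul]
    exact mul_mem hx hy

theorem mem_intCl (H : IsSig D Sg SgR) {x : F} (hx : x ∈ intCl R D.t) : Sg x ∈ intCl R D.t := by
  rw [S36.mem_intCl] at hx ⊢
  let φ : Algebra.adjoin R {D.t} →+* Algebra.adjoin R {D.t} :=
    (Sg : F →+* F).restrict _ _ (fun x hx => H.map_adjoin hx)
  exact IsIntegral.map_of_comp_eq φ (Sg : F →+* F) (by ext x; rfl) hx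

theorem map_K (H : IsSig D Sg SgR) (c : K) : ∃ c' : K, Sg (algebraMap K F c) = algebraMap K F c' := by
  obtain ⟨a, b, -, rfl⟩ := IsFractionRing.div_surjective (A := R) c
  refine ⟨algebraMap R K (SgR a) / algebraMap R K (SgR b), ?_⟩
  rw [map_div₀, map_div₀, map_div₀, ← IsScalarTower.algebraMap_apply, ← IsScalarTower.algebraMap_apply,
    ← IsScalarTower.algebraMap_apply, ← IsScalarTower.algebraMap_apply, H.map_R, H.map_R]

theorem hor (H : IsSig D Sg SgR) {m : ℕ} {h : F} (hh : Hor K m h) : Hor K m (Sg h) := by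
  intro W hW
  obtain ⟨y, hy, e⟩ := hh (W.comap (Sg : F →+* F)) (fun c => by
    obtain ⟨c', hc'⟩ := H.map_K c
    rw [ValuationSubring.mem_comap]
    change Sg (algebraMap K F c) ∈ W
    rw [hc']
    exact hW c')
  refine ⟨Sg y, by rwa [Ne, map_eq_zero_iff _ Sg.injective], ?_⟩
  have := val_eq_one_of_ringEquiv (V := W.comap (Sg : F →+* F)) (V' := W) Sg (fun x hx => hx) e
  rwa [map_mul, map_pow] at this

end IsSig

/-- a root of unity modulo a prime ideal of the chart is congruent to a root of unity of `R`. -/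
theorem exists_root_chart {t : F} {m : ℕ} (hm : m ≠ 0) (ζ : R) (hζ : IsPrimitiveRoot ζ m)
    (𝔪 : Ideal (intCl R t)) [𝔪.IsPrime] (b : intCl R t) (hb : b ^ m - 1 ∈ 𝔪) :
    ∃ z : R, z ^ m = 1 ∧ b - StepGAux.cB R t z ∈ 𝔪 := by
  have h := X_pow_sub_one_eq_prod (Nat.pos_of_ne_zero hm) hζ
  have h2 := congrArg (eval₂ (StepGAux.cB R t) b) h
  simp only [eval₂_sub, eval₂_pow, eval₂_X, eval₂_one, eval₂_finsetProd, eval₂_C] at h2
  rw [h2] at hb
  obtain ⟨z, hz, hz2⟩ := (Ideal.IsPrime.prod_mem_iff).1 hb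
  have : NeZero m := ⟨hm⟩
  exact ⟨z, (mem_nthRootsFinset (Nat.pos_of_ne_zero hm) _).1 hz, hz2⟩

/-- **[Z36]** -/
theorem z36_aux (D : GeomDatum R K F) {Sg : F ≃+* F} {SgR : R ≃+* R} (H : IsSig D Sg SgR)
    {m : ℕ} (hm : IsUnit ((m : ℕ) : R)) (ζ : R) (hζ : IsPrimitiveRoot ζ m) (a : ℕ)
    (ha : ∀ z : R, z ^ m = 1 → SgR z = z ^ a)
    {h : F} (hh : ∀ i, (D.O i).valuation (h - 1) < 1) (hhor : Hor K m h) :
    ∃ (c : R) (x : F), c ≠ 0 ∧ x ≠ 0 ∧ Sg h * h ^ ((m - 1) * a) = algebraMap R F c * x ^ m := by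
  have hm0 : m ≠ 0 := by
    rintro rfl
    simp at hm
  set e : ℕ := (m - 1) * a with he
  have hae : a + e = m * a := by
    obtain ⟨k, rfl⟩ : ∃ k, m = k + 1 := ⟨m - 1, by omega⟩
    rw [he, Nat.add_sub_cancel]
    ring
  set g : F := Sg h * h ^ e with hg
  have hBO : ∀ i, intCl R D.t ≤ (D.O i).toSubring := fun i => intCl_le (D.sys.gauss i)
  have hvB : ∀ i (b : intCl R D.t), (D.O i).valuation (b : F) ≤ 1 := fun i b =>
    (ValuationSubring.valuation_le_one_iff _ _).2 (hBO i b.2)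
  have hSone : ∀ i {y : F}, (D.O i).valuation (y - 1) < 1 → (D.O i).valuation (Sg y - 1) < 1 := by
    intro i y hy
    have := H.val_lt i hy
    rwa [map_sub, map_one] at this
  have hg1 : ∀ i, (D.O i).valuation (g - 1) < 1 := fun i =>
    TrivialAux.val_mul_sub_one (hSone i (hh i)) (TrivialAux.val_pow_sub_one (hh i) e)
  have hvg : ∀ i, (D.O i).valuation g = 1 := fun i => comp_aux_val_f (hg1 i)
  have hvh : ∀ i, (D.O i).valuation h = 1 := fun i => comp_aux_val_f (hh i)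
  have hghor : Hor K m g := hor_mul (H.hor hhor) (hor_pow hhor e)
  -- the reference element
  obtain ⟨u₀, hu₀, hu₀1⟩ := D.exists_comp hm0 hh hhor 0
  have hu₀le : ∀ i, (D.O i).valuation u₀ ≤ 1 := fun i =>
    (StepGAux.exists_approx D hm0 i (hh i) hu₀).1
  choose b hb using fun i => (StepGAux.exists_approx D hm0 i (hh i) hu₀).2
  set w : intCl R D.t := ⟨_, hu₀⟩ with hw
  have hbs : ∀ i, b i ^ m - w ∈ D.sys.p i := by
    intro i
    rw [GaussSys.mem_p]
    change (D.O i).valuation ((b i : F) ^ m - u₀ ^ m * h) < 1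
    have e1 : (b i : F) ^ m - u₀ ^ m * h = - ((u₀ ^ m - (b i : F) ^ m) + u₀ ^ m * (h - 1)) := by
      ring
    rw [e1, Valuation.map_neg]
    refine Valuation.map_add_lt _ (comp_aux_pow (hu₀le i) (hvB i _) (hb i) m) ?_
    rw [map_mul, map_pow]
    calc (D.O i).valuation u₀ ^ m * (D.O i).valuation (h - 1)
        ≤ 1 * (D.O i).valuation (h - 1) := by gcongr; exact pow_le_one₀ zero_le (hu₀le i)
      _ < 1 := by simpa using hh i
  have hw1 : w - 1 ∈ D.sys.p 0 := by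
    rw [GaussSys.mem_p]
    change (D.O 0).valuation (u₀ ^ m * h - 1) < 1
    exact TrivialAux.val_mul_sub_one (TrivialAux.val_pow_sub_one hu₀1 m) (hh 0)
  have hbm : ∀ 𝔪 : Ideal (intCl R D.t), (∀ i, D.sys.p i ≤ 𝔪) → ∀ i, b i ^ m - 1 ∈ 𝔪 := by
    intro 𝔪 htr i
    have := 𝔪.add_mem (htr i (hbs i)) (htr 0 hw1)
    rwa [sub_add_sub_cancel] at this
  -- the reference element of `g`
  set U₀ : F := Sg u₀ * u₀ ^ e with hU₀def
  have hU₀ : U₀ ^ m * g ∈ intCl R D.t := by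
    have e1 : U₀ ^ m * g = Sg (u₀ ^ m * h) * (u₀ ^ m * h) ^ e := by
      rw [hU₀def, hg, map_mul, map_pow]
      ring
    rw [e1]
    exact (intCl R D.t).mul_mem (H.mem_intCl hu₀) ((intCl R D.t).pow_mem hu₀ e)
  have hU₀1 : (D.O 0).valuation (U₀ - 1) < 1 :=
    TrivialAux.val_mul_sub_one (hSone 0 hu₀1) (TrivialAux.val_pow_sub_one hu₀1 e)
  set Sb : Fin 3 → intCl R D.t := fun i => ⟨Sg (b i : F), H.mem_intCl (b i).2⟩ with hSb
  set β : Fin 3 → intCl R D.t := fun i => Sb i * b i ^ e with hβ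
  have hβU : ∀ i, (D.O i).valuation (U₀ - (β i : F)) < 1 := by
    intro i
    have e1 : U₀ - (β i : F) = Sg (u₀ - (b i : F)) * u₀ ^ e +
        Sg (b i : F) * (u₀ ^ e - (b i : F) ^ e) := by
      rw [hU₀def, map_sub]
      change _ - Sg (b i : F) * (b i : F) ^ e = _
      ring
    rw [e1]
    refine Valuation.map_add_lt _ ?_ ?_
    · rw [map_mul, map_pow]
      calc (D.O i).valuation (Sg (u₀ - (b i : F))) * (D.O i).valuation u₀ ^ e
          ≤ (D.O i).valuation (Sg (u₀ - (b i : F))) * 1 := by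
            gcongr; exact pow_le_one₀ zero_le (hu₀le i)
        _ < 1 := by simpa using H.val_lt i (hb i)
    · rw [map_mul]
      calc (D.O i).valuation (Sg (b i : F)) * (D.O i).valuation (u₀ ^ e - (b i : F) ^ e)
          ≤ 1 * (D.O i).valuation (u₀ ^ e - (b i : F) ^ e) := by
            gcongr; exact H.val_le i (hvB i _)
        _ < 1 := by simpa using comp_aux_pow (hu₀le i) (hvB i _) (hb i) e
  have hβ1 : ∀ 𝔪 : Ideal (intCl R D.t), 𝔪.IsMaximal → (∀ i, D.sys.p i ≤ 𝔪) → ∀ i,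
      β i - 1 ∈ 𝔪 := by
    intro 𝔪 h𝔪 htr i
    have hpr := h𝔪.isPrime
    obtain ⟨z, hz, hzb⟩ := exists_root_chart hm0 ζ hζ 𝔪 (b i) (hbm 𝔪 htr i)
    have h1 : Sb i - StepGAux.cB R D.t (z ^ a) ∈ 𝔪 := by
      refine H.fix 𝔪 h𝔪 htr _ _ ?_ hzb
      change Sg (b i : F) - algebraMap R F (z ^ a) = Sg ((b i : F) - algebraMap R F z)
      rw [map_sub, H.map_R, ha z hz]
    rw [← Ideal.Quotient.eq] at h1 hzb
    rw [← Ideal.Quotient.eq, hβ]
    simp only [map_mul, map_pow, map_one]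
    have h2 : Ideal.Quotient.mk 𝔪 (StepGAux.cB R D.t z) ^ m = 1 := by
      rw [← map_pow, ← map_pow, hz, map_one, map_one]
    rw [h1, hzb, map_pow, map_pow, ← pow_add, hae, pow_mul, h2, one_pow]
  -- gluing
  have hglue : Glued D.sys m g (fun _ => 1) := by
    intro i j hij 𝔪 h𝔪 hi hj u u' hu hu' huz hu'z
    have htr := D.triple 𝔪 h𝔪 i j hij hi hj
    have hpr : 𝔪.IsPrime := h𝔪.isPrime
    have hβn : ∀ l, β l ∉ 𝔪 := by
      intro l hl
      have h3 := 𝔪.sub_mem hl (hβ1 𝔪 h𝔪 htr l)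
      rw [sub_sub_cancel] at h3
      exact hpr.ne_top ((Ideal.eq_top_iff_one _).2 h3)
    have hzβ : ∀ l, StepGAux.cB R D.t 1 - β l ^ 1 ∈ 𝔪 := by
      intro l
      have := 𝔪.neg_mem (hβ1 𝔪 h𝔪 htr l)
      rwa [neg_sub, ← map_one (StepGAux.cB R D.t), ← pow_one (β l)] at this
    have k1 := StepGAux.key D hm0 1 hg1 hU₀ hU₀1 𝔪 h𝔪 (htr 0) i hi (β i) (hβU i) (hβn i) 1
      (hzβ i) (by rwa [pow_one]) huz
    have k2 := StepGAux.key D hm0 1 hg1 hU₀ hU₀1 𝔪 h𝔪 (htr 0) j hj (β j) (hβU j) (hβn j) 1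
      (hzβ j) (by rwa [pow_one]) hu'z
    have hU₀0 : U₀ ^ 1 ≠ 0 := by
      apply pow_ne_zero
      intro h0
      have := comp_aux_val_f hU₀1
      rw [h0] at this
      simp at this
    have k3 := GlueAux.one_div' k2 k1
    rwa [div_div_div_cancel_right₀ hU₀0] at k3
  exact trivial_of_glued D.irr D.sys D.glob D.ded₁ D.ded₂ hm ζ hζ hg1
    (D.ld₁ hm0 hvg hghor) (D.ld₂ hm0 hvg hghor) (fun _ => 1) (fun _ => one_pow _) hglue
    (D.glued₂ m g _)

/-- **[Z36]**, final form : `Sg h = c * h ^ a * x ^ m`. -/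
theorem z36 (D : GeomDatum R K F) {Sg : F ≃+* F} {SgR : R ≃+* R} (H : IsSig D Sg SgR)
    {m : ℕ} (hm : IsUnit ((m : ℕ) : R)) (ζ : R) (hζ : IsPrimitiveRoot ζ m) (a : ℕ)
    (ha : ∀ z : R, z ^ m = 1 → SgR z = z ^ a)
    {h : F} (hh : ∀ i, (D.O i).valuation (h - 1) < 1) (hhor : Hor K m h) :
    ∃ (c : R) (x : F), c ≠ 0 ∧ x ≠ 0 ∧ Sg h = algebraMap R F c * h ^ a * x ^ m := by
  obtain ⟨c, x, hc, hx, e⟩ := z36_aux D H hm ζ hζ a ha hh hhor
  have hh0 : h ≠ 0 := by
    rintro rfl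
    have := comp_aux_val_f (hh 0)
    simp at this
  have hm0 : m ≠ 0 := by
    rintro rfl
    simp at hm
  refine ⟨c, x * (h ^ a)⁻¹, hc, mul_ne_zero hx (inv_ne_zero (pow_ne_zero _ hh0)), ?_⟩
  have hae : a + (m - 1) * a = a * m := by
    obtain ⟨k, rfl⟩ : ∃ k, m = k + 1 := ⟨m - 1, by omega⟩
    rw [Nat.add_sub_cancel]
    ring
  have h1 : h ^ a * h ^ ((m - 1) * a) = (h ^ a) ^ m := by rw [← pow_add, hae, pow_mul]
  have h2 : h ^ ((m - 1) * a) ≠ 0 := pow_ne_zero _ hh0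
  have h3 : (h ^ a) ^ m ≠ 0 := pow_ne_zero _ (pow_ne_zero _ hh0)
  apply mul_right_cancel₀ h2
  rw [e, mul_pow, inv_pow]
  calc algebraMap R F c * x ^ m = algebraMap R F c * x ^ m * ((h ^ a) ^ m * ((h ^ a) ^ m)⁻¹) := by
        rw [mul_inv_cancel₀ h3, mul_one]
    _ = algebraMap R F c * h ^ a * (x ^ m * ((h ^ a) ^ m)⁻¹) * h ^ ((m - 1) * a) := by
        rw [← h1]; ring

end Fermat.Agent.RIB
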