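import Mathlib

/-!
# RIB / CTRL : `[CTRL-ALG]`  the algebra of (CTRL)

`X` = the inertia-fixed `p`-power torsion classes at the level `L l²`, `Y` = the `p`-power torsion classes at the level `L`,
`s` = a Frobenius lift acting on both, `io i : Y → X` (`i = 0, 1, 2`) the three degeneracy pull-backs and a RELATION
`Kap ⊆ X × Y³` ("`κ(x) = red(y)`"), an additive subgroup stable under `s`, with

* (tot)  `∀ x, ∃ y, Kap ((s² - 1) x, y)`
* (inj)  `Kap (0, y) → y = 0`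
* (ker)  `Kap (x, 0) → (s² - l²) x = 0`
* (iota) `Kap (s² io(v), M' v)`, `M' = [[s², l s, l²], [s², l s, s²], [l², l s, s²]]`.

Then on the part where `s² - 1`, `s² - l²`, `l s` are invertible, `io : Y³ → X` is bijective.

* `ctrl_mod`  : the version for modules over a commutative ring `Λ` (`= ℤ[s]`) and an ideal `J`;
* `exists_cert` : in `ℤ[X]`, `J = (p ^ k, (X² - a X + l) ^ N)`, `p ∣ l - 1`, `p ∤ a² - 4` : the three elements are invertible mod `J`;
* `ctrl_alg`  : the version for abelian groups with an endomorphism.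
-/

set_option autoImplicit false

open Polynomial

namespace Fermat.Agent.RIB

section ModVersion

variable {Λ : Type*} [CommRing Λ] {X Y : Type*} [AddCommGroup X] [AddCommGroup Y]
  [Module Λ X] [Module Λ Y]

theorem smul_eq_self_of_sub_one_mem {Z : Type*} [AddCommGroup Z] [Module Λ Z] {J : Ideal Λ} {c : Λ}
    (hc : c - 1 ∈ J) {z : Z} (hz : ∀ a ∈ J, a • z = 0) : c • z = z := by
  have := hz _ hc
  rwa [sub_smul, one_smul, sub_eq_zero] at this

/-- the matrix `M'` -/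
def ctrlM (s l : Λ) (v : Fin 3 → Y) : Fin 3 → Y :=
  ![s ^ 2 • v 0 + (l * s) • v 1 + l ^ 2 • v 2, s ^ 2 • v 0 + (l * s) • v 1 + s ^ 2 • v 2,
    l ^ 2 • v 0 + (l * s) • v 1 + s ^ 2 • v 2]

theorem ctrl_mod (s l : Λ) (J : Ideal Λ) (B₁ B₂ B₃ : Λ) (h₁ : B₁ * (s ^ 2 - 1) - 1 ∈ J)
    (h₂ : B₂ * (s ^ 2 - l ^ 2) - 1 ∈ J) (h₃ : B₃ * (l * s) - 1 ∈ J)
    (io : Fin 3 → Y →ₗ[Λ] X) (Kap : Submodule Λ (X × (Fin 3 → Y)))
    (tot : ∀ x : X, ∃ y : Fin 3 → Y, ((s ^ 2 - 1) • x, y) ∈ Kap)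
    (inj : ∀ y : Fin 3 → Y, ((0 : X), y) ∈ Kap → y = 0)
    (ker : ∀ x : X, (x, (0 : Fin 3 → Y)) ∈ Kap → (s ^ 2 - l ^ 2) • x = 0)
    (iota : ∀ v : Fin 3 → Y, (s ^ 2 • ∑ i, io i (v i), ctrlM s l v) ∈ Kap) :
    (∀ x : X, (∀ a ∈ J, a • x = 0) →
      ∃ v : Fin 3 → Y, (∀ i, ∀ a ∈ J, a • v i = 0) ∧ x = ∑ i, io i (v i)) ∧
    (∀ v : Fin 3 → Y, (∀ i, ∀ a ∈ J, a • v i = 0) → ∑ i, io i (v i) = 0 → v = 0) := by
  constructor
  · intro x hx
    have hx1 : (s ^ 2 - 1) • (B₁ • x) = x := by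
      rw [smul_smul, mul_comm]
      exact smul_eq_self_of_sub_one_mem h₁ hx
    obtain ⟨y, hy⟩ := tot (B₁ • x)
    rw [hx1] at hy
    have hyJ : ∀ i, ∀ a ∈ J, a • y i = 0 := by
      intro i a ha
      have h1 := Kap.smul_mem a hy
      rw [Prod.smul_mk, hx a ha] at h1
      exact congrFun (inj _ h1) i
    have hsub : ∀ i j, ∀ a ∈ J, a • (y i - y j) = 0 := fun i j a ha => by
      rw [smul_sub, hyJ i a ha, hyJ j a ha, sub_zero]
    set v2 : Y := B₂ • (y 1 - y 0) with hv2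
    set v0 : Y := B₂ • (y 1 - y 2) with hv0
    have hv2J : ∀ a ∈ J, a • v2 = 0 := fun a ha => by
      rw [hv2, smul_comm, hsub 1 0 a ha, smul_zero]
    have hv0J : ∀ a ∈ J, a • v0 = 0 := fun a ha => by
      rw [hv0, smul_comm, hsub 1 2 a ha, smul_zero]
    have hwJ : ∀ a ∈ J, a • (y 1 - s ^ 2 • (v0 + v2)) = 0 := fun a ha => by
      rw [smul_sub, hyJ 1 a ha, smul_comm, smul_add, hv0J a ha, hv2J a ha, add_zero, smul_zero,
        sub_zero]
    set v1 : Y := B₃ • (y 1 - s ^ 2 • (v0 + v2)) with hv1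
    have hv1J : ∀ a ∈ J, a • v1 = 0 := fun a ha => by
      rw [hv1, smul_comm, hwJ a ha, smul_zero]
    have e2 : (s ^ 2 - l ^ 2) • v2 = y 1 - y 0 := by
      rw [hv2, smul_smul, mul_comm]
      exact smul_eq_self_of_sub_one_mem h₂ (hsub 1 0)
    have e0 : (s ^ 2 - l ^ 2) • v0 = y 1 - y 2 := by
      rw [hv0, smul_smul, mul_comm]
      exact smul_eq_self_of_sub_one_mem h₂ (hsub 1 2)
    have e1 : (l * s) • v1 = y 1 - s ^ 2 • (v0 + v2) := by
      rw [hv1, smul_smul, mul_comm]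
      exact smul_eq_self_of_sub_one_mem h₃ hwJ
    rw [sub_smul] at e2 e0
    have hM : ctrlM s l ![v0, v1, v2] = y := by
      funext i
      fin_cases i
      · show s ^ 2 • v0 + (l * s) • v1 + l ^ 2 • v2 = y 0
        rw [e1, smul_add]
        have : l ^ 2 • v2 = s ^ 2 • v2 - (y 1 - y 0) := by rw [← e2]; abel
        rw [this]; abel
      · show s ^ 2 • v0 + (l * s) • v1 + s ^ 2 • v2 = y 1
        rw [e1, smul_add]; abel
      · show l ^ 2 • v0 + (l * s) • v1 + s ^ 2 • v2 = y 2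
        rw [e1, smul_add]
        have : l ^ 2 • v0 = s ^ 2 • v0 - (y 1 - y 2) := by rw [← e0]; abel
        rw [this]; abel
    have hio := iota ![v0, v1, v2]
    rw [hM] at hio
    have hdiff := Kap.sub_mem hy hio
    rw [Prod.mk_sub_mk, sub_self] at hdiff
    have hk := ker _ hdiff
    have hvJ : ∀ i, ∀ a ∈ J, a • (![v0, v1, v2] : Fin 3 → Y) i = 0 := by
      intro i
      fin_cases i
      · exact hv0J
      · exact hv1J
      · exact hv2J
    have hdJ : ∀ a ∈ J, a • (x - s ^ 2 • ∑ i, io i ((![v0, v1, v2] : Fin 3 → Y) i)) = 0 := by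
      intro a ha
      rw [smul_sub, hx a ha, smul_comm, Finset.smul_sum, zero_sub, neg_eq_zero]
      rw [Finset.sum_eq_zero, smul_zero]
      intro i _
      rw [← map_smul, hvJ i a ha, map_zero]
    have hz : x - s ^ 2 • ∑ i, io i ((![v0, v1, v2] : Fin 3 → Y) i) = 0 := by
      rw [← smul_eq_self_of_sub_one_mem h₂ hdJ, mul_smul, hk, smul_zero]
    refine ⟨fun i => s ^ 2 • (![v0, v1, v2] : Fin 3 → Y) i, fun i a ha => ?_, ?_⟩
    · rw [smul_comm, hvJ i a ha, smul_zero]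
    · rw [sub_eq_zero] at hz
      rw [hz, Finset.smul_sum]
      exact Finset.sum_congr rfl fun i _ => (map_smul _ _ _).symm
  · intro v hv h0
    have hio := iota v
    rw [h0, smul_zero] at hio
    have hM := inj _ hio
    have r0 : s ^ 2 • v 0 + (l * s) • v 1 + l ^ 2 • v 2 = 0 := congrFun hM 0
    have r1 : s ^ 2 • v 0 + (l * s) • v 1 + s ^ 2 • v 2 = 0 := congrFun hM 1
    have r2 : l ^ 2 • v 0 + (l * s) • v 1 + s ^ 2 • v 2 = 0 := congrFun hM 2
    have e2 : (s ^ 2 - l ^ 2) • v 2 = 0 := by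
      rw [sub_smul]
      have : s ^ 2 • v 2 - l ^ 2 • v 2 = (s ^ 2 • v 0 + (l * s) • v 1 + s ^ 2 • v 2) -
        (s ^ 2 • v 0 + (l * s) • v 1 + l ^ 2 • v 2) := by abel
      rw [this, r0, r1, sub_zero]
    have e0 : (s ^ 2 - l ^ 2) • v 0 = 0 := by
      rw [sub_smul]
      have : s ^ 2 • v 0 - l ^ 2 • v 0 = (s ^ 2 • v 0 + (l * s) • v 1 + s ^ 2 • v 2) -
        (l ^ 2 • v 0 + (l * s) • v 1 + s ^ 2 • v 2) := by abel
      rw [this, r1, r2, sub_zero]
    have z2 : v 2 = 0 := by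
      rw [← smul_eq_self_of_sub_one_mem h₂ (hv 2), mul_smul, e2, smul_zero]
    have z0 : v 0 = 0 := by
      rw [← smul_eq_self_of_sub_one_mem h₂ (hv 0), mul_smul, e0, smul_zero]
    have e1 : (l * s) • v 1 = 0 := by
      rw [z0, z2, smul_zero, zero_add, add_zero] at r1
      exact r1
    have z1 : v 1 = 0 := by
      rw [← smul_eq_self_of_sub_one_mem h₃ (hv 1), mul_smul, e1, smul_zero]
    funext i
    fin_cases i
    · exact z0
    · exact z1
    · exact z2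

end ModVersion

section Cert

theorem isUnit_of_mul_eq_one_add {Q : Type*} [CommRing Q] {u w n : Q} (hn : n ∈ nilradical Q)
    (h : u * w = 1 + n) : IsUnit w := by
  have h1 : IsUnit (u * w) := by
    rw [h, add_comm]
    exact IsNilpotent.isUnit_add_one ((mem_nilradical).1 hn)
  exact isUnit_of_mul_isUnit_right h1

/-- the ideal `(p ^ k, (X² - a X + l) ^ N)` of `ℤ[X]` -/
noncomputable def ctrlJ (p k N : ℕ) (a l : ℤ) : Ideal ℤ[X] :=
  Ideal.span {C ((p : ℤ) ^ k), (X ^ 2 - C a * X + C l) ^ N}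

theorem exists_cert (p k N : ℕ) (a l : ℤ) (hl : (p : ℤ) ∣ l - 1)
    (ha : IsCoprime (p : ℤ) (a ^ 2 - 4)) :
    ∃ B₁ B₂ B₃ : ℤ[X],
      B₁ * (X ^ 2 - 1) - 1 ∈ ctrlJ p k N a l ∧
      B₂ * (X ^ 2 - C l ^ 2) - 1 ∈ ctrlJ p k N a l ∧
      B₃ * (C l * X) - 1 ∈ ctrlJ p k N a l := by
  set J := ctrlJ p k N a l with hJ
  set π := Ideal.Quotient.mk J with hπ
  obtain ⟨t, ht⟩ := hl
  obtain ⟨d, c, hdc⟩ := ha
  set P := π (C (p : ℤ)) with hP
  set x := π X with hx
  set A := π (C a) with hA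
  set Lq := π (C l) with hLq
  set qq := x ^ 2 - A * x + Lq with hqq
  have hPn : P ∈ nilradical (ℤ[X] ⧸ J) := by
    rw [mem_nilradical]
    refine ⟨k, ?_⟩
    rw [hP, ← map_pow, ← C_pow, hπ, Ideal.Quotient.eq_zero_iff_mem]
    exact Ideal.subset_span (by simp)
  have hqn : qq ∈ nilradical (ℤ[X] ⧸ J) := by
    rw [mem_nilradical]
    refine ⟨N, ?_⟩
    have : qq ^ N = π ((X ^ 2 - C a * X + C l) ^ N) := by
      simp only [map_pow, map_add, map_sub, map_mul, hqq, hx, hA, hLq]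
    rw [this, hπ, Ideal.Quotient.eq_zero_iff_mem]
    exact Ideal.subset_span (by simp)
  have hL : Lq = 1 + P * π (C t) := by
    rw [hLq, hP, ← map_mul, ← C_mul, ← ht, ← map_one π, ← map_add, ← C_1, ← C_add]
    congr 2
    ring
  have hdc' : π (C d) * P + π (C c) * (A ^ 2 - 4) = 1 := by
    have : (π (C d) * P + π (C c) * (A ^ 2 - 4)) = π (C (d * p + c * (a ^ 2 - 4))) := by
      have h4 : π (C (4 : ℤ)) = 4 := by
        have : (C (4 : ℤ) : ℤ[X]) = ((4 : ℕ) : ℤ[X]) := by simp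
        rw [this, map_natCast]
        norm_num
      simp only [map_add, map_mul, map_sub, map_pow, hP, hA, h4]
    rw [this, hdc, C_1, map_one]
  set T := π (C t) with hT
  set Dd := π (C d) with hDd
  set Cc := π (C c) with hCc
  -- the three units
  have u1 : IsUnit (x ^ 2 - 1) := by
    refine isUnit_of_mul_eq_one_add (u := -Cc * (A ^ 2 - 2 - A * x))
      (n := P * (-Dd - T * Cc * (2 + A * x)) + qq * (Cc * (2 + A * x))) ?_ ?_
    · exact (nilradical _).add_mem (Ideal.mul_mem_right _ _ hPn) (Ideal.mul_mem_right _ _ hqn)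
    · rw [hqq]
      linear_combination hdc' - (Cc * (2 + A * x)) * hL
  have u2 : IsUnit (x ^ 2 - Lq ^ 2) := by
    refine isUnit_of_mul_eq_one_add (u := -Cc * (A ^ 2 - 2 - A * x))
      (n := P * (-Dd - T * Cc * (2 + A * x) + Cc * (A ^ 2 - 2 - A * x) * T * (Lq + 1)) +
        qq * (Cc * (2 + A * x))) ?_ ?_
    · exact (nilradical _).add_mem (Ideal.mul_mem_right _ _ hPn) (Ideal.mul_mem_right _ _ hqn)
    · rw [hqq]
      linear_combination hdc' +
        (-(Cc * (2 + A * x)) + Cc * (A ^ 2 - 2 - A * x) * (Lq + 1)) * hL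
  have u3 : IsUnit (Lq * x) := by
    refine isUnit_of_mul_eq_one_add (u := A - x)
      (n := P * (T * (Lq + 1)) + qq * (-Lq)) ?_ ?_
    · exact (nilradical _).add_mem (Ideal.mul_mem_right _ _ hPn) (Ideal.mul_mem_right _ _ hqn)
    · rw [hqq]
      linear_combination (Lq + 1) * hL
  obtain ⟨b₁, hb₁⟩ := u1.exists_left_inv
  obtain ⟨b₂, hb₂⟩ := u2.exists_left_inv
  obtain ⟨b₃, hb₃⟩ := u3.exists_left_inv
  obtain ⟨B₁, rfl⟩ := Ideal.Quotient.mk_surjective b₁
  obtain ⟨B₂, rfl⟩ := Ideal.Quotient.mk_surjective b₂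
  obtain ⟨B₃, rfl⟩ := Ideal.Quotient.mk_surjective b₃
  refine ⟨B₁, B₂, B₃, ?_, ?_, ?_⟩
  · rw [← Ideal.Quotient.eq, map_mul, map_sub, map_pow, map_one]
    exact hb₁
  · rw [← Ideal.Quotient.eq, map_mul, map_sub, map_pow, map_pow, map_one]
    exact hb₂
  · rw [← Ideal.Quotient.eq, map_mul, map_mul, map_one]
    exact hb₃

end Cert

section GroupVersion

variable {XX YY : Type*} [AddCommGroup XX] [AddCommGroup YY]

theorem map_aeval_of_comm (sX : Module.End ℤ XX) (sY : Module.End ℤ YY) (f : YY →+ XX)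
    (h : ∀ y, f (sY y) = sX (f y)) (P : ℤ[X]) (y : YY) :
    f (aeval sY P y) = aeval sX P (f y) := by
  induction P using Polynomial.induction_on generalizing y with
  | C c => simp only [aeval_C, Module.algebraMap_end_apply, map_zsmul]
  | add P Q hP hQ => simp only [map_add, LinearMap.add_apply, hP, hQ]
  | monomial n c ih =>
    have eY : aeval sY (C c * X ^ (n + 1) : ℤ[X]) = aeval sY (C c * X ^ n : ℤ[X]) * sY := by
      rw [pow_succ, ← mul_assoc, map_mul _ (C c * X ^ n), aeval_X]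
    have eX : aeval sX (C c * X ^ (n + 1) : ℤ[X]) = aeval sX (C c * X ^ n : ℤ[X]) * sX := by
      rw [pow_succ, ← mul_assoc, map_mul _ (C c * X ^ n), aeval_X]
    rw [eY, eX, Module.End.mul_apply, Module.End.mul_apply, ih, h]

theorem aeval_mem_of_stable {Z : Type*} [AddCommGroup Z] (sZ : Module.End ℤ Z) (H : AddSubgroup Z)
    (h : ∀ z ∈ H, sZ z ∈ H) (P : ℤ[X]) {z : Z} (hz : z ∈ H) : aeval sZ P z ∈ H := by
  induction P using Polynomial.induction_on generalizing z with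
  | C c =>
    rw [aeval_C, Module.algebraMap_end_apply]
    exact H.zsmul_mem hz c
  | add P Q hP hQ =>
    rw [map_add, LinearMap.add_apply]
    exact H.add_mem (hP hz) (hQ hz)
  | monomial n c ih =>
    rw [pow_succ, ← mul_assoc, map_mul _ (C c * X ^ n), aeval_X, Module.End.mul_apply]
    exact ih (h z hz)

theorem aeval_ctrl_q {Z : Type*} [AddCommGroup Z] (sZ : Module.End ℤ Z) (a l : ℤ) (N : ℕ) :
    aeval sZ ((X ^ 2 - C a * X + C l : ℤ[X]) ^ N) = (sZ ^ 2 - a • sZ + l • 1) ^ N := by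
  simp only [map_pow, map_add, map_sub, map_mul, aeval_X, aeval_C, Algebra.algebraMap_eq_smul_one,
    smul_mul_assoc, one_mul]

theorem aeval_ctrl_p {Z : Type*} [AddCommGroup Z] (sZ : Module.End ℤ Z) (p k : ℕ) (z : Z) :
    aeval sZ (C ((p : ℤ) ^ k) : ℤ[X]) z = p ^ k • z := by
  rw [aeval_C, Module.algebraMap_end_apply]
  have : ((p : ℤ) ^ k) = ((p ^ k : ℕ) : ℤ) := by push_cast; rfl
  rw [this, natCast_zsmul]

theorem tors_iff {Z : Type*} [AddCommGroup Z] (sZ : Module.End ℤ Z) (p k N : ℕ) (a l : ℤ) (z : Z) :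
    (∀ c ∈ ctrlJ p k N a l, aeval sZ c z = 0) ↔
      (p ^ k • z = 0 ∧ ((sZ ^ 2 - a • sZ + l • 1) ^ N : Module.End ℤ Z) z = 0) := by
  constructor
  · intro h
    refine ⟨?_, ?_⟩
    · rw [← aeval_ctrl_p sZ]
      exact h _ (Ideal.subset_span (by simp))
    · rw [← aeval_ctrl_q sZ]
      exact h _ (Ideal.subset_span (by simp))
  · rintro ⟨h1, h2⟩ c hc
    rw [ctrlJ] at hc
    induction hc using Submodule.span_induction with
    | mem c hc =>
      rcases hc with rfl | rfl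
      · rw [aeval_ctrl_p, h1]
      · rw [aeval_ctrl_q, h2]
    | zero => simp
    | add c d _ _ hc hd => rw [map_add, LinearMap.add_apply, hc, hd, add_zero]
    | smul r c _ hc => rw [smul_eq_mul, map_mul, Module.End.mul_apply, hc, map_zero]

/-- **[CTRL-ALG]** -/
theorem ctrl_alg (sX : Module.End ℤ XX) (sY : Module.End ℤ YY)
    (io : Fin 3 → YY →+ XX) (hio : ∀ i y, io i (sY y) = sX (io i y))
    (Kap : AddSubgroup (XX × (Fin 3 → YY)))
    (hKs : ∀ z ∈ Kap, (sX z.1, fun i => sY (z.2 i)) ∈ Kap)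
    (p k N : ℕ) (a l : ℤ) (hl : (p : ℤ) ∣ l - 1) (ha : IsCoprime (p : ℤ) (a ^ 2 - 4))
    (tot : ∀ x : XX, ∃ y : Fin 3 → YY, (sX (sX x) - x, y) ∈ Kap)
    (inj : ∀ y : Fin 3 → YY, ((0 : XX), y) ∈ Kap → y = 0)
    (ker : ∀ x : XX, (x, (0 : Fin 3 → YY)) ∈ Kap → sX (sX x) - l ^ 2 • x = 0)
    (iota : ∀ v : Fin 3 → YY, (sX (sX (∑ i, io i (v i))),
      ![sY (sY (v 0)) + l • sY (v 1) + l ^ 2 • v 2, sY (sY (v 0)) + l • sY (v 1) + sY (sY (v 2)),
        l ^ 2 • v 0 + l • sY (v 1) + sY (sY (v 2))]) ∈ Kap) :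
    (∀ x : XX, p ^ k • x = 0 → ((sX ^ 2 - a • sX + l • 1) ^ N : Module.End ℤ XX) x = 0 →
      ∃ v : Fin 3 → YY, (∀ i, p ^ k • v i = 0 ∧ ((sY ^ 2 - a • sY + l • 1) ^ N : Module.End ℤ YY) (v i) = 0) ∧
        x = ∑ i, io i (v i)) ∧
    (∀ v : Fin 3 → YY, (∀ i, p ^ k • v i = 0 ∧ ((sY ^ 2 - a • sY + l • 1) ^ N : Module.End ℤ YY) (v i) = 0) →
      ∑ i, io i (v i) = 0 → v = 0) := by
  let mX : Module ℤ[X] XX := Module.compHom XX (aeval sX : ℤ[X] →ₐ[ℤ] Module.End ℤ XX).toRingHom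
  let mY : Module ℤ[X] YY := Module.compHom YY (aeval sY : ℤ[X] →ₐ[ℤ] Module.End ℤ YY).toRingHom
  have sX_def : ∀ (P : ℤ[X]) (x : XX), P • x = aeval sX P x := fun _ _ => rfl
  have sY_def : ∀ (P : ℤ[X]) (y : YY), P • y = aeval sY P y := fun _ _ => rfl
  obtain ⟨B₁, B₂, B₃, h₁, h₂, h₃⟩ := exists_cert p k N a l hl ha
  have torsX : ∀ x : XX, (∀ c ∈ ctrlJ p k N a l, c • x = 0) ↔
      (p ^ k • x = 0 ∧ ((sX ^ 2 - a • sX + l • 1) ^ N : Module.End ℤ XX) x = 0) :=
    fun x => tors_iff sX p k N a l x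
  have torsY : ∀ y : YY, (∀ c ∈ ctrlJ p k N a l, c • y = 0) ↔
      (p ^ k • y = 0 ∧ ((sY ^ 2 - a • sY + l • 1) ^ N : Module.End ℤ YY) y = 0) :=
    fun y => tors_iff sY p k N a l y
  -- the linear data
  let ioL : Fin 3 → YY →ₗ[ℤ[X]] XX := fun i =>
    { toFun := io i
      map_add' := map_add _
      map_smul' := fun P y => map_aeval_of_comm sX sY (io i) (hio i) P y }
  let sZ : Module.End ℤ (XX × (Fin 3 → YY)) :=
    { toFun := fun z => (sX z.1, fun i => sY (z.2 i))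
      map_add' := fun z z' => by
        ext
        · simp
        · simp
      map_smul' := fun c z => by
        ext
        · simp
        · simp }
  have hXz : ∀ z : XX × (Fin 3 → YY), (X : ℤ[X]) • z = sZ z := by
    intro z
    refine Prod.ext ?_ (funext fun i => ?_)
    · show (X : ℤ[X]) • z.1 = sX z.1
      rw [sX_def, aeval_X]
    · show (X : ℤ[X]) • z.2 i = sY (z.2 i)
      rw [sY_def, aeval_X]
  have hCz : ∀ (c : ℤ) (z : XX × (Fin 3 → YY)), (C c : ℤ[X]) • z = c • z := by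
    intro c z
    refine Prod.ext ?_ (funext fun i => ?_)
    · show (C c : ℤ[X]) • z.1 = c • z.1
      rw [sX_def, aeval_C, Module.algebraMap_end_apply]
    · show (C c : ℤ[X]) • z.2 i = c • z.2 i
      rw [sY_def, aeval_C, Module.algebraMap_end_apply]
  have sZ_ev : ∀ (P : ℤ[X]) (z : XX × (Fin 3 → YY)), aeval sZ P z = P • z := by
    intro P z
    induction P using Polynomial.induction_on generalizing z with
    | C c => rw [aeval_C, Module.algebraMap_end_apply, hCz]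
    | add P Q hP hQ => rw [map_add, LinearMap.add_apply, hP, hQ, add_smul]
    | monomial n c ih =>
      rw [pow_succ, ← mul_assoc, map_mul _ (C c * X ^ n), aeval_X, Module.End.mul_apply, ih,
        mul_smul (C c * X ^ n) X z, hXz]
  let KapL : Submodule ℤ[X] (XX × (Fin 3 → YY)) :=
    { Kap with
      smul_mem' := fun P z hz => by
        rw [← sZ_ev]
        exact aeval_mem_of_stable sZ Kap hKs P hz }
  have memK : ∀ z, z ∈ KapL ↔ z ∈ Kap := fun _ => Iff.rfl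
  have x2 : ∀ x : XX, (X ^ 2 : ℤ[X]) • x = sX (sX x) := fun x => by
    rw [sX_def, map_pow, aeval_X, pow_two, Module.End.mul_apply]
  have y2 : ∀ x : YY, (X ^ 2 : ℤ[X]) • x = sY (sY x) := fun x => by
    rw [sY_def, map_pow, aeval_X, pow_two, Module.End.mul_apply]
  have xl2 : ∀ x : XX, (C l ^ 2 : ℤ[X]) • x = l ^ 2 • x := fun x => by
    rw [sX_def, ← C_pow, aeval_C, Module.algebraMap_end_apply]
  have yl2 : ∀ x : YY, (C l ^ 2 : ℤ[X]) • x = l ^ 2 • x := fun x => by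
    rw [sY_def, ← C_pow, aeval_C, Module.algebraMap_end_apply]
  have yl1 : ∀ x : YY, (C l * X : ℤ[X]) • x = l • sY x := fun x => by
    rw [sY_def, map_mul, aeval_X, aeval_C, Module.End.mul_apply, Module.algebraMap_end_apply]
  have key := ctrl_mod (Λ := ℤ[X]) (X := XX) (Y := YY) X (C l) (ctrlJ p k N a l) B₁ B₂ B₃ h₁ h₂ h₃ ioL KapL
    (fun x => by
      obtain ⟨y, hy⟩ := tot x
      refine ⟨y, ?_⟩
      rw [memK, sub_smul, one_smul, x2]
      exact hy)
    inj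
    (fun x hx => by
      rw [sub_smul, x2, xl2]
      exact ker x hx)
    (fun v => by
      rw [memK, x2]
      have : ctrlM (X : ℤ[X]) (C l) v = ![sY (sY (v 0)) + l • sY (v 1) + l ^ 2 • v 2,
          sY (sY (v 0)) + l • sY (v 1) + sY (sY (v 2)),
          l ^ 2 • v 0 + l • sY (v 1) + sY (sY (v 2))] := by
        simp only [ctrlM, y2, yl2, yl1]
      rw [this]
      exact iota v)
  refine ⟨fun x h1 h2 => ?_, fun v hv h0 => ?_⟩
  · obtain ⟨v, hv, hx⟩ := key.1 x ((torsX x).2 ⟨h1, h2⟩)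
    exact ⟨v, fun i => (torsY _).1 (hv i), hx⟩
  · exact key.2 v (fun i => (torsY _).2 (hv i)) h0

end GroupVersion

end Fermat.Agent.RIB
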