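import Fermat.Agent.RIB.Ctrl.ThetaAbs
import Fermat.Agent.RIB.Theta

/-!
# RIB / CTRL : `[CTRL-THETA]` the consumer form of (CTRL) on `thetaPart`

`V = thetaPart L p S θ`, `W = thetaPart (L*l*l) p S θ`, `I` (inertia at `l`), `s` (a Frobenius lift at `l`).
From `KapHyp I s (p^k) l (iot L l) Kp` (all `k`) and the nilpotency of `s² - a s + l` on `V` and on `W^I`:

* every `I`-fixed `x ∈ W` is `iota L l v` with `v i ∈ V`;
* `iota L l` is injective on `V³`.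
-/

set_option autoImplicit false

noncomputable section

open AlgebraicCurve ModularCurve

namespace Fermat.Agent.RIB

open Fermat.Agent.GAL Fermat.Agent.GAL.PC

local notation "GQ" => (AlgebraicClosure ℚ ≃ₐ[ℚ] AlgebraicClosure ℚ)

theorem isTh_iff_mem_thetaPart (N p : ℕ) [NeZero N] (S : Set ℕ) (θ : ℕ → ℤ) (x : JZero N) :
    IsTh (JZero N) p (fun r : {r : Nat.Primes // (r : ℕ) ∉ S} => hk N θ r.1) x ↔
      x ∈ thetaPart N p S θ := by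
  rw [mem_thetaPart]
  exact ⟨fun h => ⟨h.1, fun r hr => h.2 ⟨r, hr⟩⟩, fun h => ⟨h.1, fun r => h.2 r.1 r.2⟩⟩

/-- **[CTRL-THETA]** -/
theorem ctrl_theta (L l p : ℕ) [NeZero L] [NeZero l] (S : Set ℕ) (θ : ℕ → ℤ)
    (hS : ∀ r : ℕ, r.Prime → r ∉ S → ¬ r ∣ L * l * l * p)
    (I : Subgroup GQ) (s : GQ) (hsI : ∀ τ ∈ I, s⁻¹ * τ * s ∈ I)
    (a : ℤ) (hl : (p : ℤ) ∣ (l : ℤ) - 1) (ha : IsCoprime (p : ℤ) (a ^ 2 - 4))
    (hY : ∀ (k : ℕ) (y : JZero L), p ^ k • y = 0 → ∀ τ ∈ I, τ • y = y)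
    (Hk : ∀ k : ℕ, ∃ Kp : JZero (L * l * l) → (Fin 3 → JZero L) → Prop,
      KapHyp I s (p ^ k) l (iot L l) Kp)
    (nilX : ∀ x ∈ thetaPart (L * l * l) p S θ, (∀ τ ∈ I, τ • x = x) →
      ∃ N : ℕ, (frobP (JZero (L * l * l)) s a l ^ N) x = 0)
    (nilY : ∀ y ∈ thetaPart L p S θ, ∃ N : ℕ, (frobP (JZero L) s a l ^ N) y = 0) :
    (∀ x ∈ thetaPart (L * l * l) p S θ, (∀ τ ∈ I, τ • x = x) →
      ∃ v : Fin 3 → JZero L, (∀ i, v i ∈ thetaPart L p S θ) ∧ iota L l v = x) ∧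
    (∀ v : Fin 3 → JZero L, (∀ i, v i ∈ thetaPart L p S θ) → iota L l v = 0 → v = 0) := by
  have key := ctrl_theta_abs I s hsI (iot L l) (fun i g y => iot_smul L l i g y) p l a hl ha hY Hk
    (fun r : {r : Nat.Primes // (r : ℕ) ∉ S} => hk (L * l * l) θ r.1)
    (fun r : {r : Nat.Primes // (r : ℕ) ∉ S} => hk L θ r.1)
    (fun r y => by
      rw [hk_apply, hk_apply, smul_sub, smul_zsmul_comm', galHecke L r.1 s y])
    (fun r i y hy => by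
      rw [hk_apply, hk_apply, map_sub, map_zsmul,
        iot_hecke i r.1 (hS r.1 r.1.2 r.2) y hy])
    (fun x hx => nilX x ((isTh_iff_mem_thetaPart _ p S θ x).1 hx))
    (fun y hy => nilY y ((isTh_iff_mem_thetaPart _ p S θ y).1 hy))
  refine ⟨fun x hx hI => ?_, fun v hv h0 => ?_⟩
  · obtain ⟨v, hv, hxv⟩ := key.1 x ((isTh_iff_mem_thetaPart _ p S θ x).2 hx) hI
    exact ⟨v, fun i => (isTh_iff_mem_thetaPart _ p S θ _).1 (hv i), hxv.symm⟩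
  · exact key.2 v (fun i => (isTh_iff_mem_thetaPart _ p S θ _).2 (hv i)) h0

end Fermat.Agent.RIB
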