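import Fermat.Agent.RIB.Ctrl.Kap.Grp
import Fermat.Agent.RIB.Ctrl.Kap.Tot
import Fermat.Agent.RIB.Ctrl.Kap.Inj
import Fermat.Agent.RIB.Ctrl.Kap.Ker
import Fermat.Agent.RIB.Ctrl.Kap.Iota
import Fermat.Agent.RIB.Ctrl.Sig.ModSig
import Fermat.Agent.RIB.Ctrl.Sig.Corr
import Fermat.Agent.RIB.Lift.Ctx
import Fermat.Agent.RIB.Ctrl.Theta

/-!
# RIB / CTRL : the final statements

* `kapHyp` : the relation `Kap C m` satisfies `KapHyp` (for a Frobenius lift `s` fixing `ζ_q`);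
* `ctrl_geo` : (CTRL) in the Hecke-free `P(s)`-form;
* `ctrl_thetaPart_of_zeta` : (CTRL) on the `θ`-parts.
-/

set_option autoImplicit false
set_option linter.unusedSectionVars false

noncomputable section

open AlgebraicCurve ModularCurve

namespace Fermat.Agent.RIB

open Fermat.Agent.S36 Fermat.Agent.S24 Fermat.Agent.RED.Gauss
open Fermat.Agent.RED (GQ)

/-- inertia is normal in the decomposition group -/
theorem ctrl_conj_mem_inertia {A : ValuationSubring Kb} {δ ι : GQ}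
    (hδ : δ ∈ A.decompositionSubgroup ℚ) (hι : ι ∈ A.inertiaSubgroupIn ℚ) :
    δ⁻¹ * ι * δ ∈ A.inertiaSubgroupIn ℚ := by
  obtain ⟨x, hx, rfl⟩ := Subgroup.mem_map.1 hι
  refine Subgroup.mem_map.2 ⟨(⟨δ, hδ⟩ : A.decompositionSubgroup ℚ)⁻¹ * x * ⟨δ, hδ⟩, ?_, rfl⟩
  have hn : (A.inertiaSubgroup ℚ).Normal := by
    unfold ValuationSubring.inertiaSubgroup
    infer_instance
  have := hn.conj_mem x hx (⟨δ, hδ⟩ : A.decompositionSubgroup ℚ)⁻¹
  simpa using this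

/-- **the relation `Kap C m` satisfies `KapHyp`.** -/
theorem kapHyp (C : S36.Ctx) (h49 : Fermat.Agent.RED.aux C.q ∣ C.M) (s : GQ)
    (hF : C.A.IsFrobeniusAt s C.q) (hζ : s (C.ζ : Kb) = C.ζ) {m : ℕ} (hm : m.Coprime C.q) :
    KapHyp (C.A.inertiaSubgroupIn ℚ) s m C.q (iot C.M C.q) (Kap C m) := by
  have hm0 : m ≠ 0 := by
    rintro rfl
    rw [Nat.coprime_zero_left] at hm
    exact C.hq.one_lt.ne' hm
  have h49' : 4 ∣ C.M ∨ 9 ∣ C.M := rigid_of_aux_dvd h49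
  have hR : ReductionInputsModL C.A C.M := ctx_reductionInputs C h49'
  let Sg := modSig C s h49 hF hζ
  refine
    { zero := Kap.zero C m
      add := fun h h' => h.add h'
      neg := fun h => h.neg
      smul := fun h => h.smul Sg hR
      tot := fun x hx hI => ?_
      inj := fun y _ h => kap_inj h49 hR hm h
      ker := fun x _ _ h => kap_ker Sg hF hm h
      iota := fun v hv => ?_ }
  · obtain ⟨y, hy⟩ := kap_tot Sg (liftTors C h49' hm) hm0 x hx hI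
    exact ⟨y, fun i => hy.nsmul_right i, hy⟩
  · have h := kap_iota Sg hF hR hm v hv
    rw [iota_apply] at h
    convert h using 1
    funext l
    rw [Fin.sum_univ_three]
    fin_cases l <;> simp [nT, sq, mul_smul]

/-- the context attached to `(A, l, L)` -/
def ctrlCtx (L l : ℕ) (hL : L ≠ 0) (hl : l.Prime) (hlL : ¬ l ∣ L) (A : ValuationSubring Kb)
    (hA : A.LiesOverPrime l) : S36.Ctx :=
  haveI : NeZero l := ⟨hl.ne_zero⟩
  { A := A, q := l, M := L, hq := hl, hA := hA, hM := hL, hqM := hlL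
    ζ := Units.mk0 (HasEnoughRootsOfUnity.exists_primitiveRoot Kb l).choose
      ((HasEnoughRootsOfUnity.exists_primitiveRoot Kb l).choose_spec.ne_zero hl.ne_zero)
    hζ := by
      rw [← IsPrimitiveRoot.coe_units_iff]
      exact (HasEnoughRootsOfUnity.exists_primitiveRoot Kb l).choose_spec }

section Final

variable (L l : ℕ) [NeZero L] [NeZero l] (hl : l.Prime) (hlL : ¬ l ∣ L)
  (h49 : Fermat.Agent.RED.aux l ∣ L) (A : ValuationSubring Kb) (hA : A.LiesOverPrime l)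

include hl hlL h49 hA

/-- `KapHyp` for a Frobenius lift fixing the `l`-th roots of unity. -/
theorem exists_kapHyp {s : GQ} (hF : A.IsFrobeniusAt s l) (hζ : ∀ z : Kb, z ^ l = 1 → s z = z)
    {m : ℕ} (hm : m.Coprime l) :
    ∃ Kp : JZero (L * l * l) → (Fin 3 → JZero L) → Prop,
      KapHyp (A.inertiaSubgroupIn ℚ) s m l (iot L l) Kp := by
  let C := ctrlCtx L l (NeZero.ne L) hl hlL A hA
  have h1 : ((C.ζ : Kbˣ) : Kb) ^ l = 1 := by
    have h2 : (C.ζ : Kbˣ) ^ l = 1 := C.hζ.pow_eq_one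
    rw [← Units.val_pow_eq_pow_val, h2, Units.val_one]
  exact ⟨Kap C m, kapHyp C h49 s hF (hζ _ h1) hm⟩

/-- the prime-to-`l` torsion of `J₀(L)` is fixed by the inertia at `l`. -/
theorem ctrl_inertia_fixed {m : ℕ} (hm : m.Coprime l) (y : JZero L) (hy : m • y = 0) :
    ∀ τ ∈ A.inertiaSubgroupIn ℚ, τ • y = y := by
  let C := ctrlCtx L l (NeZero.ne L) hl hlL A hA
  exact inertia_fixed_levelM (C := C) (ctx_reductionInputs C (rigid_of_aux_dvd h49)) hm hy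

/-- **(CTRL)**, Hecke-free form: `s` ANY Frobenius lift at `A ∣ l`, `p ∣ l - 1`, `p ∤ a² - 4`. -/
theorem ctrl_geo {s : GQ} (hF : A.IsFrobeniusAt s l) {p : ℕ} (hp : p.Prime) (k N : ℕ) (a : ℤ)
    (hl1 : (p : ℤ) ∣ (l : ℤ) - 1) (ha : IsCoprime (p : ℤ) (a ^ 2 - 4)) :
    (∀ x : JZero (L * l * l), p ^ k • x = 0 → (∀ τ ∈ A.inertiaSubgroupIn ℚ, τ • x = x) →
      (frobP (JZero (L * l * l)) s a l ^ N) x = 0 →
      ∃ v : Fin 3 → JZero L, (∀ i, p ^ k • v i = 0 ∧ (frobP (JZero L) s a l ^ N) (v i) = 0) ∧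
        x = iota L l v) ∧
    (∀ v : Fin 3 → JZero L, (∀ i, p ^ k • v i = 0 ∧ (frobP (JZero L) s a l ^ N) (v i) = 0) →
      iota L l v = 0 → v = 0) := by
  have hpl : p ≠ l := by
    rintro rfl
    have h1 : (p : ℤ) ∣ 1 := by
      have := dvd_sub (dvd_refl (p : ℤ)) hl1
      simpa using this
    exact hp.one_lt.ne' (by exact_mod_cast Int.eq_one_of_dvd_one (by positivity) h1)
  have hm : (p ^ k).Coprime l := Nat.Coprime.pow_left k ((Nat.coprime_primes hp hl).2 hpl)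
  have hsI : ∀ τ ∈ A.inertiaSubgroupIn ℚ, s⁻¹ * τ * s ∈ A.inertiaSubgroupIn ℚ := fun τ hτ =>
    ctrl_conj_mem_inertia hF.mem_decompositionSubgroup hτ
  obtain ⟨τ₀, hτ₀, hF', hζ⟩ := exists_isFrobeniusAt_fix hl A hA hF
  have hsI' : ∀ τ ∈ A.inertiaSubgroupIn ℚ, (s * τ₀)⁻¹ * τ * (s * τ₀) ∈ A.inertiaSubgroupIn ℚ :=
    fun τ hτ => ctrl_conj_mem_inertia hF'.mem_decompositionSubgroup hτ
  have hY := ctrl_inertia_fixed L l hl hlL h49 A hA hm
  obtain ⟨Kp, H⟩ := exists_kapHyp L l hl hlL h49 A hA hF' hζ hm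
  have key := ctrl_main (A.inertiaSubgroupIn ℚ) (s * τ₀) hsI' (iot L l)
    (fun i g y => iot_smul L l i g y) p k N l a hl1 ha hY Kp H
  refine ⟨fun x hx hI hP => ?_, fun v hv h0 => ?_⟩
  · obtain ⟨v, hv, hxv⟩ := key.1 x hx hI (by
      rw [frobP_pow_mul_of_fixed _ s τ₀ hsI hτ₀ a l N x hI]; exact hP)
    refine ⟨v, fun i => ⟨(hv i).1, ?_⟩, hxv⟩
    rw [← frobP_pow_mul_of_fixed _ s τ₀ hsI hτ₀ a l N (v i) (hY _ (hv i).1)]
    exact (hv i).2
  · exact key.2 v (fun i => ⟨(hv i).1, by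
      rw [frobP_pow_mul_of_fixed _ s τ₀ hsI hτ₀ a l N (v i) (hY _ (hv i).1)]
      exact (hv i).2⟩) h0

/-- **(CTRL)** on the `θ`-parts: `s` ANY Frobenius lift at `A ∣ l`. -/
theorem ctrl_thetaPart {s : GQ} (hF : A.IsFrobeniusAt s l) {p : ℕ} (hp : p.Prime) (S : Set ℕ)
    (θ : ℕ → ℤ) (hS : ∀ r : ℕ, r.Prime → r ∉ S → ¬ r ∣ L * l * l * p) (a : ℤ)
    (hl1 : (p : ℤ) ∣ (l : ℤ) - 1) (ha : IsCoprime (p : ℤ) (a ^ 2 - 4))
    (nilX : ∀ x ∈ thetaPart (L * l * l) p S θ, (∀ τ ∈ A.inertiaSubgroupIn ℚ, τ • x = x) →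
      ∃ N : ℕ, (frobP (JZero (L * l * l)) s a l ^ N) x = 0)
    (nilY : ∀ y ∈ thetaPart L p S θ, ∃ N : ℕ, (frobP (JZero L) s a l ^ N) y = 0) :
    (∀ x ∈ thetaPart (L * l * l) p S θ, (∀ τ ∈ A.inertiaSubgroupIn ℚ, τ • x = x) →
      ∃ v : Fin 3 → JZero L, (∀ i, v i ∈ thetaPart L p S θ) ∧ iota L l v = x) ∧
    (∀ v : Fin 3 → JZero L, (∀ i, v i ∈ thetaPart L p S θ) → iota L l v = 0 → v = 0) := by
  have hpl : p ≠ l := by
    rintro rfl
    have h1 : (p : ℤ) ∣ 1 := by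
      have := dvd_sub (dvd_refl (p : ℤ)) hl1
      simpa using this
    exact hp.one_lt.ne' (by exact_mod_cast Int.eq_one_of_dvd_one (by positivity) h1)
  have hm : ∀ k, (p ^ k).Coprime l := fun k =>
    Nat.Coprime.pow_left k ((Nat.coprime_primes hp hl).2 hpl)
  have hsI : ∀ τ ∈ A.inertiaSubgroupIn ℚ, s⁻¹ * τ * s ∈ A.inertiaSubgroupIn ℚ := fun τ hτ =>
    ctrl_conj_mem_inertia hF.mem_decompositionSubgroup hτ
  obtain ⟨τ₀, hτ₀, hF', hζ⟩ := exists_isFrobeniusAt_fix hl A hA hF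
  have hsI' : ∀ τ ∈ A.inertiaSubgroupIn ℚ, (s * τ₀)⁻¹ * τ * (s * τ₀) ∈ A.inertiaSubgroupIn ℚ :=
    fun τ hτ => ctrl_conj_mem_inertia hF'.mem_decompositionSubgroup hτ
  have hY := fun k => ctrl_inertia_fixed L l hl hlL h49 A hA (hm k)
  refine ctrl_theta L l p S θ hS (A.inertiaSubgroupIn ℚ) (s * τ₀) hsI' a hl1 ha hY
    (fun k => exists_kapHyp L l hl hlL h49 A hA hF' hζ (hm k)) (fun x hx hI => ?_) (fun y hy => ?_)
  · obtain ⟨N, hN⟩ := nilX x hx hI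
    exact ⟨N, by rw [frobP_pow_mul_of_fixed _ s τ₀ hsI hτ₀ a l N x hI]; exact hN⟩
  · obtain ⟨N, hN⟩ := nilY y hy
    obtain ⟨k, hk⟩ := hy.1
    exact ⟨N, by rw [frobP_pow_mul_of_fixed _ s τ₀ hsI hτ₀ a l N y (hY k y hk)]; exact hN⟩

end Final

end Fermat.Agent.RIB
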