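import Fermat.Agent.RIB.Ctrl.ThetaAbs
import Fermat.Agent.RIB.Rho.Spec
import Fermat.Agent.RIB.Main.Ctx
import Fermat.Agent.Cheb.Cyclo

/-!
# RIB / CTRL / NIL : `g + χ(g) g⁻¹ - tr rbar(g)` is locally nilpotent on the `θ`-part

* `tr_nil` (CORE) : `rbar` as in `Rho.exists_poly_spec`, `g ∈ G_ℚ`, `tr rbar(g) = a`, `x` in the `θ`-part with `p^j x = 0`, `g = (·)^c` on
  `μ_{p^j}`  ⟹  `(g + c g⁻¹ - a)^N x = 0` for some `N`.
* `frobP_nil` : `s` a Frobenius at `A | l`, `l ∉ T`  ⟹  `(s² - θ(l) s + l)^N x = 0` for all `x` of the `θ`-part, at EVERY level.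
-/

set_option autoImplicit false

noncomputable section

open AlgebraicCurve ModularCurve

namespace Fermat.Agent.RIB

local notation "Qbar" => AlgebraicClosure ℚ
local notation "GQ" => (AlgebraicClosure ℚ ≃ₐ[ℚ] AlgebraicClosure ℚ)
local notation "M₂" => Matrix (Fin 2) (Fin 2)

section Abs

variable {J : Type*} [AddCommGroup J]

/-- the ideal of the polynomials `P` with `P(T) x = 0`. -/
def annPolyAt (T : Module.End ℤ J) (x : J) : Ideal (Polynomial ℤ) where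
  carrier := {P | Polynomial.aeval T P x = 0}
  add_mem' := by
    intro a b ha hb
    show Polynomial.aeval T (a + b) x = 0
    rw [map_add, LinearMap.add_apply, ha, hb, add_zero]
  zero_mem' := by
    show Polynomial.aeval T 0 x = 0
    rw [map_zero, LinearMap.zero_apply]
  smul_mem' := by
    intro c P hP
    show Polynomial.aeval T (c * P) x = 0
    rw [map_mul, Module.End.mul_apply, hP, map_zero]

theorem mem_annPolyAt {T : Module.End ℤ J} {x : J} {P : Polynomial ℤ} :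
    P ∈ annPolyAt T x ↔ Polynomial.aeval T P x = 0 := Iff.rfl

/-- `Q(T) - a` is nilpotent at `x` when `T - b` and `p` are and `Q(b) ≡ a mod p`. -/
theorem aeval_sub_nil (T : Module.End ℤ J) (Q : Polynomial ℤ) (a b : ℤ) (p j m : ℕ)
    (hQ : (p : ℤ) ∣ Q.eval b - a) (x : J) (hj : p ^ j • x = 0)
    (hm : ((T - ((b : ℤ) : Module.End ℤ J)) ^ m) x = 0) :
    ∃ N : ℕ, ((Polynomial.aeval T Q - a • (1 : Module.End ℤ J)) ^ N) x = 0 := by
  have h1 : (Polynomial.X - Polynomial.C b : Polynomial ℤ) ∈ (annPolyAt T x).radical := by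
    refine ⟨m, ?_⟩
    rw [mem_annPolyAt, map_pow, map_sub, Polynomial.aeval_X, Polynomial.aeval_C]
    exact hm
  have h2 : (Polynomial.C (p : ℤ) : Polynomial ℤ) ∈ (annPolyAt T x).radical := by
    refine ⟨j, ?_⟩
    rw [mem_annPolyAt, ← map_pow, Polynomial.aeval_C, Module.algebraMap_end_apply]
    rw [← hj]
    norm_cast
  obtain ⟨c, hc⟩ := hQ
  obtain ⟨H, hH⟩ := Polynomial.X_sub_C_dvd_sub_C_eval (a := b) (p := Q)
  have h3 : Q - Polynomial.C a = (Polynomial.X - Polynomial.C b) * H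
      + Polynomial.C (p : ℤ) * Polynomial.C c := by
    rw [← hH, ← map_mul, ← hc, map_sub]
    abel
  have h4 : Q - Polynomial.C a ∈ (annPolyAt T x).radical := by
    rw [h3]
    exact Ideal.add_mem _ (Ideal.mul_mem_right _ _ h1) (Ideal.mul_mem_right _ _ h2)
  obtain ⟨N, hN⟩ := h4
  refine ⟨N, ?_⟩
  rw [mem_annPolyAt, map_pow, map_sub, Polynomial.aeval_C] at hN
  rw [← hN]
  congr 3

variable {G : Type*} [Group G] [DistribMulAction G J]

/-- the operator `g + c g⁻¹ - a`. -/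
def trOp (J : Type*) [AddCommGroup J] [DistribMulAction G J] (g : G) (c a : ℤ) : Module.End ℤ J :=
  actEnd J g + c • actEnd J g⁻¹ - a • 1

theorem trOp_apply (g : G) (c a : ℤ) (x : J) :
    trOp J g c a x = g • x + c • g⁻¹ • x - a • x := by
  simp [trOp]

/-- if `g + c g⁻¹ = t` on the `m`-torsion, the powers of `g + c g⁻¹ - a` and of `t - a` agree there. -/
theorem trOp_pow_eq (g : G) (c a : ℤ) (t : Module.End ℤ J) (m : ℕ)
    (h : ∀ y : J, m • y = 0 → g • y + c • g⁻¹ • y = t y) (N : ℕ) (y : J) (hy : m • y = 0) :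
    (trOp J g c a ^ N) y = ((t - a • (1 : Module.End ℤ J)) ^ N) y := by
  induction N generalizing y with
  | zero => rfl
  | succ N ih =>
    have e : trOp J g c a y = (t - a • (1 : Module.End ℤ J)) y := by
      rw [trOp_apply, h y hy]
      simp
    rw [pow_succ _ N, pow_succ _ N, Module.End.mul_apply, Module.End.mul_apply, e]
    exact ih _ (by rw [← map_nsmul, hy, map_zero])

theorem frobP_eq_trOp_mul (s : G) (a l : ℤ) : frobP J s a l = trOp J s l a * actEnd J s := by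
  apply LinearMap.ext
  intro y
  rw [frobP_apply, Module.End.mul_apply, trOp_apply, actEnd_apply, inv_smul_smul]
  abel

theorem commute_trOp_actEnd (s : G) (a l : ℤ) : Commute (trOp J s l a) (actEnd J s) := by
  apply LinearMap.ext
  intro y
  rw [Module.End.mul_apply, Module.End.mul_apply, trOp_apply, trOp_apply, actEnd_apply, actEnd_apply,
    smul_sub, smul_add, smul_zsmul_comm', smul_zsmul_comm', inv_smul_smul, smul_inv_smul]

theorem frobP_pow_eq_zero_of_trOp (s : G) (a l : ℤ) (N : ℕ) (x : J)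
    (h : (trOp J s l a ^ N) x = 0) : (frobP J s a l ^ N) x = 0 := by
  have hc := commute_trOp_actEnd (J := J) s a l
  rw [frobP_eq_trOp_mul, hc.mul_pow, (hc.pow_pow N N).eq, Module.End.mul_apply, h, map_zero]

end Abs

section Conc

variable {L p : ℕ} [NeZero L]

/-- **(CORE)** `g + c g⁻¹ - a` is nilpotent at every `x` of the `θ`-part (`a = tr rbar(g)`, `c = χ(g)` modulo `p^j`, `p^j x = 0`). -/
theorem tr_nil (hp : p.Prime) (S : Finset ℕ) (hS : ∀ r : ℕ, r.Prime → r ∣ L * p → r ∈ S) (θ : ℕ → ℤ)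
    (rbar : GQ →* M₂ (ZMod p)) (hcont : GaloisFactorsThroughFiniteLevel rbar)
    (hfrob : ∀ r : ℕ, r.Prime → r ∉ S → ∀ A : ValuationSubring Qbar, A.LiesOverPrime r →
      ∀ φ : GQ, A.IsFrobeniusAt φ r →
        (rbar φ).trace = ((θ r : ℤ) : ZMod p) ∧ (rbar φ).det = ((r : ℕ) : ZMod p))
    (g : GQ) (a : ℤ) (ha : (rbar g).trace = ((a : ℤ) : ZMod p))
    (x : JZero L) (hx : x ∈ thetaPart L p (↑S : Set ℕ) θ) (j : ℕ) (hj : p ^ j • x = 0)
    (c : ℕ) (hc : ∀ ζ : Qbar, ζ ^ (p ^ j) = 1 → g ζ = ζ ^ c) :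
    ∃ N : ℕ, (trOp (JZero L) g (c : ℤ) a ^ N) x = 0 := by
  obtain ⟨r, Q, hrS, htr, hQ⟩ := Rho.exists_poly_spec hp j S hS θ rbar hcont hfrob g
  obtain ⟨m, hm⟩ := hx.2 r (fun h => hrS (Finset.mem_coe.1 h))
  have hdvd : (p : ℤ) ∣ Q.eval (θ r) - a := by
    rw [← ZMod.intCast_zmod_eq_zero_iff_dvd, Int.cast_sub, ← htr, ← ha, sub_self]
  obtain ⟨N, hN⟩ := aeval_sub_nil (heckeOperatorBar L r) Q a (θ r) p j m hdvd x hj hm
  refine ⟨N, ?_⟩
  rw [trOp_pow_eq g (c : ℤ) a (Polynomial.aeval (heckeOperatorBar L r) Q) (p ^ j)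
    (fun y hy => by rw [natCast_zsmul]; exact hQ c hc y hy) N x hj]
  exact hN

variable [Fact p.Prime] {T : Finset ℕ} {θ : ℕ → ℤ} {rbar0 : GQ →* M₂ (ZMod p)}

/-- `tr_nil` in terms of `ECtx`. -/
theorem ECtx.tr_nil (EC : ECtx p T θ rbar0) (S : Finset ℕ) (hTS : T ⊆ S)
    (hL : ∀ r : ℕ, r.Prime → r ∣ L * p → r ∈ S)
    (g : GQ) (a : ℤ) (ha : (rbar0 g).trace = ((a : ℤ) : ZMod p))
    (x : JZero L) (hx : x ∈ thetaPart L p (↑S : Set ℕ) θ) (j : ℕ) (hj : p ^ j • x = 0)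
    (c : ℕ) (hc : ∀ ζ : Qbar, ζ ^ (p ^ j) = 1 → g ζ = ζ ^ c) :
    ∃ N : ℕ, (trOp (JZero L) g (c : ℤ) a ^ N) x = 0 :=
  RIB.tr_nil Fact.out S hL θ rbar0 EC.cont
    (fun r hr hrS => EC.frob r hr (fun h => hrS (hTS h))) g a ha x hx j hj c hc

/-- **[NIL]** : `s² - θ(l) s + l` is nilpotent at every `x` of the `θ`-part, for every Frobenius `s` at `A | l`, `l ∉ T`; at EVERY level
(`l` may divide `L`; no `I_l`-fixedness). -/
theorem frobP_nil (EC : ECtx p T θ rbar0) (S : Finset ℕ) (hTS : T ⊆ S)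
    (hL : ∀ r : ℕ, r.Prime → r ∣ L * p → r ∈ S) {l : ℕ} (hl : l.Prime) (hlT : l ∉ T)
    {A : ValuationSubring Qbar} (hA : A.LiesOverPrime l) {s : GQ} (hs : A.IsFrobeniusAt s l) :
    ∀ x ∈ thetaPart L p (↑S : Set ℕ) θ, ∃ N : ℕ, (frobP (JZero L) s (θ l) (l : ℤ) ^ N) x = 0 := by
  intro x hx
  have hp : p.Prime := Fact.out
  obtain ⟨j, hj⟩ := hx.1
  have hlp : ¬ l ∣ p ^ j := fun h => by
    have h1 := (Nat.prime_dvd_prime_iff_eq hl hp).1 (hl.dvd_of_dvd_pow h)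
    exact hlT (h1 ▸ EC.p_mem)
  obtain ⟨N, hN⟩ := EC.tr_nil S hTS hL s (θ l) (EC.frob l hl hlT A hA s hs).1 x hx j hj l
    (fun ζ hζ => Cheb.apply_rootOfUnity_of_isFrobeniusAt hl hA hlp hs hζ)
  exact ⟨N, frobP_pow_eq_zero_of_trOp s (θ l) (l : ℤ) N x hN⟩

/-- **(UNIP)** : `τ` with `rbar0 τ = 1` fixing `μ_{p^∞}` is unipotent on the `θ`-part: `(τ - 1)^N x = 0`. -/
theorem unip_nil (EC : ECtx p T θ rbar0) (S : Finset ℕ) (hTS : T ⊆ S)
    (hL : ∀ r : ℕ, r.Prime → r ∣ L * p → r ∈ S) (τ : GQ) (hτ : rbar0 τ = 1)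
    (hζ : ∀ (j : ℕ) (ζ : Qbar), ζ ^ (p ^ j) = 1 → τ ζ = ζ) :
    ∀ x ∈ thetaPart L p (↑S : Set ℕ) θ,
      ∃ N : ℕ, ((actEnd (JZero L) τ - 1) ^ N) x = 0 := by
  intro x hx
  obtain ⟨j, hj⟩ := hx.1
  obtain ⟨N, hN⟩ := EC.tr_nil S hTS hL τ 2 (by rw [hτ, Matrix.trace_one]; simp) x hx j hj 1
    (fun ζ h => by rw [pow_one]; exact hζ j ζ h)
  refine ⟨2 * N, ?_⟩
  have e : (actEnd (JZero L) τ - 1) ^ 2 = actEnd (JZero L) τ * trOp (JZero L) τ ((1 : ℕ) : ℤ) 2 := by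
    apply LinearMap.ext
    intro y
    rw [pow_two, Module.End.mul_apply, Module.End.mul_apply, trOp_apply]
    simp only [LinearMap.sub_apply, Module.End.one_apply, actEnd_apply, smul_sub, smul_add,
      Nat.cast_one, one_smul, smul_inv_smul, smul_zsmul_comm']
    rw [two_zsmul]
    abel
  have hc := commute_trOp_actEnd (J := JZero L) τ 2 ((1 : ℕ) : ℤ)
  rw [pow_mul, e, hc.symm.mul_pow, Module.End.mul_apply, hN, map_zero]

end Conc

end Fermat.Agent.RIB
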