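import Fermat.Agent.RIB.Ctrl.ThetaAbs

/-!
# RIB / CTRL : nilpotency of `s² - a s + l` on a generalised eigen-part, abstract form

`s x + l s⁻¹ x = Q(T) x` on `J[p^j]` (`T` commuting with `s`), `(T - θ₀)^n x = 0`, `p^j x = 0`, `a ≡ Q(θ₀) mod p`
`⟹ (s² - a s + l)^(n + j) x = 0`.
-/

set_option autoImplicit false

open Polynomial

namespace Fermat.Agent.RIB

section

variable {J : Type*} [AddCommGroup J]

/-- the polynomials `P` with `P(T) x = 0` -/
def annPoly (T : Module.End ℤ J) (x : J) : Ideal ℤ[X] where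
  carrier := {P | aeval T P x = 0}
  zero_mem' := by simp
  add_mem' := fun {P P'} h h' => by
    show aeval T (P + P') x = 0
    rw [map_add, LinearMap.add_apply, h, h', add_zero]
  smul_mem' := fun c P h => by
    show aeval T (c • P) x = 0
    rw [smul_eq_mul, map_mul, Module.End.mul_apply, h, map_zero]

theorem mem_annPoly {T : Module.End ℤ J} {x : J} {P : ℤ[X]} :
    P ∈ annPoly T x ↔ aeval T P x = 0 := Iff.rfl

/-- `(Q - a)^(n + j)` kills `x`. -/
theorem aeval_sub_pow_eq_zero (T : Module.End ℤ J) (Q : ℤ[X]) (θ₀ a : ℤ) (p n j : ℕ) (x : J)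
    (hj : p ^ j • x = 0) (hn : ((T - θ₀ • 1) ^ n : Module.End ℤ J) x = 0)
    (ha : (p : ℤ) ∣ Q.eval θ₀ - a) : aeval T ((Q - C a) ^ (n + j)) x = 0 := by
  obtain ⟨Q₁, hQ₁⟩ : (X - C θ₀) ∣ Q - C (Q.eval θ₀) := X_sub_C_dvd_sub_C_eval
  obtain ⟨c, hc⟩ := ha
  have e : Q - C a = (X - C θ₀) * Q₁ + C ((p : ℤ) * c) := by
    rw [← hQ₁, ← hc, C_sub]; ring
  rw [← mem_annPoly, e]
  refine Ideal.add_pow_mem_of_pow_mem_of_le _ (m := n) (n := j) ?_ ?_ (Nat.le_succ _)
  · rw [mul_pow, mul_comm]
    refine Ideal.mul_mem_left _ _ ?_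
    rw [mem_annPoly, map_pow, map_sub, aeval_X, aeval_C]
    have : (algebraMap ℤ (Module.End ℤ J)) θ₀ = θ₀ • 1 := by
      rw [Algebra.algebraMap_eq_smul_one]
    rw [this]
    exact hn
  · rw [mem_annPoly, ← C_pow, aeval_C, mul_pow, Algebra.algebraMap_eq_smul_one,
      LinearMap.smul_apply, Module.End.one_apply, mul_comm, mul_smul]
    have : ((p : ℤ) ^ j) • x = 0 := by
      have h2 : ((p : ℤ) ^ j) = ((p ^ j : ℕ) : ℤ) := by push_cast; rfl
      rw [h2, natCast_zsmul, hj]
    rw [this, smul_zero]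

variable {G : Type*} [Group G] [DistribMulAction G J]

/-- **nilpotency of `s² - a s + l`.** -/
theorem frobP_pow_eq_zero_of_spec (s : G) (T : Module.End ℤ J) (hT : ∀ y, T (s • y) = s • T y)
    (Q : ℤ[X]) (θ₀ a : ℤ) (p l n j : ℕ)
    (hCH : ∀ y : J, p ^ j • y = 0 → s • y + l • s⁻¹ • y = aeval T Q y)
    (x : J) (hj : p ^ j • x = 0) (hn : ((T - θ₀ • 1) ^ n : Module.End ℤ J) x = 0)
    (ha : (p : ℤ) ∣ Q.eval θ₀ - a) : (frobP J s a l ^ (n + j)) x = 0 := by
  set t : Module.End ℤ J := aeval T Q with ht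
  have hTA : Commute T (actEnd J s) := LinearMap.ext hT
  have htA : Commute t (actEnd J s) := by
    have h1 : ∀ P : ℤ[X], Commute (aeval T P) (actEnd J s) := by
      intro P
      induction P using Polynomial.induction_on' with
      | add P P' h h' => rw [map_add]; exact h.add_left h'
      | monomial n c =>
        rw [aeval_monomial]
        exact Commute.mul_left (Algebra.commutes c (actEnd J s)) (hTA.pow_left n)
    exact h1 Q
  set E : Module.End ℤ J := (t - a • 1) * actEnd J s with hE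
  -- on `J[p^j]`
  have h1 : ∀ z : J, p ^ j • z = 0 → frobP J s a l z = E z := by
    intro z hz
    have hsz : p ^ j • (s • z) = 0 := by rw [← smul_nsmul_comm', hz, smul_zero]
    have := hCH (s • z) hsz
    rw [inv_smul_smul] at this
    rw [frobP_apply, hE]
    simp only [Module.End.mul_apply, LinearMap.sub_apply, LinearMap.smul_apply,
      Module.End.one_apply, actEnd_apply]
    rw [← this, natCast_zsmul]
    abel
  have h2 : ∀ z : J, p ^ j • z = 0 → p ^ j • E z = 0 := by
    intro z hz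
    rw [← map_nsmul, hz, map_zero]
  have h3 : ∀ (N : ℕ) (z : J), p ^ j • z = 0 → (frobP J s a l ^ N) z = (E ^ N) z := by
    intro N
    induction N with
    | zero => intro z _; rfl
    | succ N ih =>
      intro z hz
      rw [pow_succ _ N, pow_succ _ N, Module.End.mul_apply, Module.End.mul_apply, h1 z hz,
        ih _ (h2 z hz)]
  have hc : Commute (t - a • 1) (actEnd J s) :=
    htA.sub_left ((Commute.one_left _).smul_left a)
  have h4 : ((t - a • 1) ^ (n + j) : Module.End ℤ J) x = 0 := by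
    have := aeval_sub_pow_eq_zero T Q θ₀ a p n j x hj hn ha
    rw [map_pow, map_sub, aeval_C, Algebra.algebraMap_eq_smul_one] at this
    exact this
  rw [h3 _ x hj, hE, hc.mul_pow, (hc.pow_pow _ _).eq, Module.End.mul_apply, h4, map_zero]

end

end Fermat.Agent.RIB
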