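import Fermat.Agent.RIB.Ctrl.NilAbs
import Fermat.Agent.RIB.Ctrl.Main
import Fermat.Agent.RIB.Rho.Spec
import Fermat.Agent.Cheb.Cyclo

/-!
# RIB / CTRL : nilpotency of `s² - a s + l` on `thetaPart`, and (CTRL) in terms of `rbar`

* `frobP_nil_thetaPart` : from `[SPEC-POLY]` (`Rho.exists_poly_spec`): for a Frobenius lift `s` at `l ≠ p` and any integer `a` lifting
  `tr rbar(s)`, a power of `s² - a s + l` kills every element of `thetaPart N p S θ` (ANY level `N`; `l ∣ N` allowed).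
* `ctrl_rbar` : (CTRL) for a Taylor-Wiles prime `l` (`l ≡ 1 mod p`, `tr rbar(s)² ≠ 4`).
-/

set_option autoImplicit false
set_option linter.unusedSectionVars false

noncomputable section

open AlgebraicCurve ModularCurve

namespace Fermat.Agent.RIB

open Fermat.Agent.GAL Fermat.Agent.GAL.PC

local notation "Qbar" => AlgebraicClosure ℚ
local notation "GQ" => (AlgebraicClosure ℚ ≃ₐ[ℚ] AlgebraicClosure ℚ)

/-- **nilpotency of `s² - a s + l` on the `θ`-part.** -/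
theorem frobP_nil_thetaPart {N p : ℕ} [NeZero N] (hp : p.Prime) (S : Finset ℕ)
    (hS : ∀ r : ℕ, r.Prime → r ∣ N * p → r ∈ S) (θ : ℕ → ℤ)
    (rbar : GQ →* Matrix (Fin 2) (Fin 2) (ZMod p)) (hcont : GaloisFactorsThroughFiniteLevel rbar)
    (hfrob : ∀ r : ℕ, r.Prime → r ∉ S → ∀ A : ValuationSubring Qbar, A.LiesOverPrime r →
      ∀ φ : GQ, A.IsFrobeniusAt φ r →
        (rbar φ).trace = ((θ r : ℤ) : ZMod p) ∧ (rbar φ).det = ((r : ℕ) : ZMod p))
    {l : ℕ} (hl : l.Prime) (hlp : l ≠ p) (A : ValuationSubring Qbar) (hA : A.LiesOverPrime l)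
    {s : GQ} (hF : A.IsFrobeniusAt s l) (a : ℤ) (ha : (rbar s).trace = ((a : ℤ) : ZMod p))
    (x : JZero N) (hx : x ∈ thetaPart N p (↑S : Set ℕ) θ) :
    ∃ n : ℕ, (frobP (JZero N) s a l ^ n) x = 0 := by
  obtain ⟨j, hj⟩ := hx.1
  obtain ⟨r, Q, hrS, htr, hspec⟩ := Rho.exists_poly_spec hp j S hS θ rbar hcont hfrob s
  obtain ⟨n, hn⟩ := hx.2 r (by simpa using hrS)
  have hlj : ¬ l ∣ p ^ j := fun h => hlp ((Nat.prime_dvd_prime_iff_eq hl hp).1 (hl.dvd_of_dvd_pow h))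
  have hsp := hspec l (fun ζ hζ => Cheb.apply_rootOfUnity_of_isFrobeniusAt hl hA hlj hF hζ)
  refine ⟨n + j, frobP_pow_eq_zero_of_spec s (heckeOperatorBar N r)
    (fun y => (galHecke N r s y).symm) Q (θ r) a p l n j hsp x hj ?_ ?_⟩
  · have e : hk N θ r = heckeOperatorBar N r - θ r • 1 := by
      rw [hk, zsmul_one]
    rw [← e]
    exact hn
  · rw [ha] at htr
    exact (ZMod.intCast_eq_intCast_iff_dvd_sub _ _ _).1 htr

/-- **(CTRL)** for a Taylor-Wiles prime. -/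
theorem ctrl_rbar (L l p : ℕ) [NeZero L] [NeZero l] (hl : l.Prime) (hlL : ¬ l ∣ L)
    (h49 : Fermat.Agent.RED.aux l ∣ L) (hp : p.Prime) (S : Finset ℕ)
    (hS : ∀ r : ℕ, r.Prime → r ∣ L * l * l * p → r ∈ S) (θ : ℕ → ℤ)
    (rbar : GQ →* Matrix (Fin 2) (Fin 2) (ZMod p)) (hcont : GaloisFactorsThroughFiniteLevel rbar)
    (hfrob : ∀ r : ℕ, r.Prime → r ∉ S → ∀ A : ValuationSubring Qbar, A.LiesOverPrime r →
      ∀ φ : GQ, A.IsFrobeniusAt φ r →
        (rbar φ).trace = ((θ r : ℤ) : ZMod p) ∧ (rbar φ).det = ((r : ℕ) : ZMod p))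
    (A : ValuationSubring Qbar) (hA : A.LiesOverPrime l) {s : GQ} (hF : A.IsFrobeniusAt s l)
    (hl1 : (p : ℤ) ∣ (l : ℤ) - 1) (hTW : (rbar s).trace ^ 2 ≠ 4) :
    (∀ x ∈ thetaPart (L * l * l) p (↑S : Set ℕ) θ, (∀ τ ∈ A.inertiaSubgroupIn ℚ, τ • x = x) →
      ∃ v : Fin 3 → JZero L, (∀ i, v i ∈ thetaPart L p (↑S : Set ℕ) θ) ∧ iota L l v = x) ∧
    (∀ v : Fin 3 → JZero L, (∀ i, v i ∈ thetaPart L p (↑S : Set ℕ) θ) → iota L l v = 0 →
      v = 0) := by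
  have : Fact p.Prime := ⟨hp⟩
  have hlp : l ≠ p := by
    rintro rfl
    have h1 : (l : ℤ) ∣ 1 := by
      have := dvd_sub (dvd_refl (l : ℤ)) hl1
      simpa using this
    exact hp.one_lt.ne' (by exact_mod_cast Int.eq_one_of_dvd_one (by positivity) h1)
  obtain ⟨a, ha⟩ := ZMod.intCast_surjective (rbar s).trace
  have hcop : IsCoprime (p : ℤ) (a ^ 2 - 4) := by
    rw [Prime.coprime_iff_not_dvd (Nat.prime_iff_prime_int.1 hp)]
    intro hd
    apply hTW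
    rw [← ha]
    have := (ZMod.intCast_zmod_eq_zero_iff_dvd (a ^ 2 - 4) p).2 hd
    push_cast at this
    exact sub_eq_zero.1 this
  have hSL : ∀ r : ℕ, r.Prime → r ∣ L * p → r ∈ S := fun r hr h =>
    hS r hr (Dvd.dvd.trans h (Nat.mul_dvd_mul_right ((Dvd.intro _ rfl).mul_right l) p))
  exact ctrl_thetaPart L l hl hlL h49 A hA hF hp (↑S : Set ℕ) θ
    (fun r hr hrS h => hrS (by simpa using hS r hr h)) a hl1 hcop
    (fun x hx _ => frobP_nil_thetaPart hp S hS θ rbar hcont hfrob hl hlp A hA hF a ha.symm x hx)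
    (fun y hy => frobP_nil_thetaPart hp S hSL θ rbar hcont hfrob hl hlp A hA hF a ha.symm y hy)

end Fermat.Agent.RIB
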