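import Fermat.Agent.RIB.Ctrl.MainAbs

/-!
# RIB / CTRL : `[CTRL-THETA]`, abstract form

From `KapHyp` (for all `p ^ k`) to the consumer form of (CTRL) on the generalised eigen-parts:
`IsTh J p T x` : `x` is `p`-power torsion and killed by a power of every `T r` (`T r = T_r - θ r`).
-/

set_option autoImplicit false

namespace Fermat.Agent.RIB

/-- `x` is `p`-power torsion and killed by a power of every `T r`. -/
def IsTh {ι : Type*} (J : Type*) [AddCommGroup J] (p : ℕ) (T : ι → Module.End ℤ J) (x : J) : Prop :=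
  (∃ k : ℕ, p ^ k • x = 0) ∧ ∀ r, ∃ n : ℕ, (T r ^ n) x = 0

section Aux

variable {J : Type*} [AddCommGroup J]

theorem pow_nsmul_eq_zero_of_le {p k k' : ℕ} (h : k ≤ k') {x : J} (hx : p ^ k • x = 0) :
    p ^ k' • x = 0 := by
  obtain ⟨d, rfl⟩ := Nat.exists_eq_add_of_le h
  rw [pow_add, mul_comm, mul_smul, hx, smul_zero]

theorem end_pow_eq_zero_of_le (P : Module.End ℤ J) {n n' : ℕ} (h : n ≤ n') {x : J}
    (hx : (P ^ n) x = 0) : (P ^ n') x = 0 := by
  obtain ⟨d, rfl⟩ := Nat.exists_eq_add_of_le h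
  rw [add_comm, pow_add, Module.End.mul_apply, hx, map_zero]

variable {G : Type*} [Group G] [DistribMulAction G J]

theorem commute_frobP (T : Module.End ℤ J) (s : G) (hT : ∀ y, T (s • y) = s • T y) (a l : ℤ) :
    Commute T (frobP J s a l) := by
  have h : Commute T (actEnd J s) := by
    apply LinearMap.ext
    intro y
    exact hT y
  unfold frobP
  exact ((h.pow_right 2).sub_right (h.smul_right a)).add_right ((Commute.one_right T).smul_right l)

end Aux

section Main

variable {G JX JY ι : Type*} [Group G] [AddCommGroup JX] [AddCommGroup JY]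
    [DistribMulAction G JX] [DistribMulAction G JY]

theorem io_pow_of_ptors (p : ℕ) (io : JY →+ JX) (TX : Module.End ℤ JX) (TY : Module.End ℤ JY)
    (h : ∀ y, (∃ k : ℕ, p ^ k • y = 0) → io (TY y) = TX (io y)) (n : ℕ) (y : JY)
    (hy : ∃ k : ℕ, p ^ k • y = 0) : io ((TY ^ n) y) = (TX ^ n) (io y) := by
  induction n generalizing y with
  | zero => rfl
  | succ n ih =>
    obtain ⟨k, hk⟩ := hy
    rw [pow_succ, pow_succ, Module.End.mul_apply, Module.End.mul_apply,
      ih (TY y) ⟨k, by rw [← map_nsmul, hk, map_zero]⟩, h y ⟨k, hk⟩]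

/-- **[CTRL-THETA]**, abstract form. -/
theorem ctrl_theta_abs (I : Subgroup G) (s : G) (hsI : ∀ τ ∈ I, s⁻¹ * τ * s ∈ I)
    (io : Fin 3 → JY →+ JX) (hio : ∀ i (g : G) y, io i (g • y) = g • io i y)
    (p l : ℕ) (a : ℤ) (hl : (p : ℤ) ∣ (l : ℤ) - 1) (ha : IsCoprime (p : ℤ) (a ^ 2 - 4))
    (hY : ∀ (k : ℕ) (y : JY), p ^ k • y = 0 → ∀ τ ∈ I, τ • y = y)
    (Hk : ∀ k : ℕ, ∃ Kp : JX → (Fin 3 → JY) → Prop, KapHyp I s (p ^ k) l io Kp)
    (TX : ι → Module.End ℤ JX) (TY : ι → Module.End ℤ JY)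
    (hTs : ∀ r y, TY r (s • y) = s • TY r y)
    (hioT : ∀ r i y, (∃ k : ℕ, p ^ k • y = 0) → io i (TY r y) = TX r (io i y))
    (nilX : ∀ x, IsTh JX p TX x → (∀ τ ∈ I, τ • x = x) → ∃ N : ℕ, (frobP JX s a l ^ N) x = 0)
    (nilY : ∀ y, IsTh JY p TY y → ∃ N : ℕ, (frobP JY s a l ^ N) y = 0) :
    (∀ x, IsTh JX p TX x → (∀ τ ∈ I, τ • x = x) →
      ∃ v : Fin 3 → JY, (∀ i, IsTh JY p TY (v i)) ∧ x = ∑ i, io i (v i)) ∧
    (∀ v : Fin 3 → JY, (∀ i, IsTh JY p TY (v i)) → ∑ i, io i (v i) = 0 → v = 0) := by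
  have main := fun (k N : ℕ) =>
    ctrl_main I s hsI io hio p k N l a hl ha (hY k) (Hk k).choose (Hk k).choose_spec
  refine ⟨fun x hx hI => ?_, fun v hv h0 => ?_⟩
  · obtain ⟨k, hk⟩ := hx.1
    obtain ⟨N, hN⟩ := nilX x hx hI
    obtain ⟨v, hv, hxv⟩ := (main k N).1 x hk hI hN
    refine ⟨v, fun i => ⟨⟨k, (hv i).1⟩, fun r => ?_⟩, hxv⟩
    obtain ⟨n, hn⟩ := hx.2 r
    refine ⟨n, ?_⟩
    have hw := (main k N).2 (fun i => (TY r ^ n) (v i)) (fun i => ⟨?_, ?_⟩) ?_
    · exact congrFun hw i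
    · rw [← map_nsmul, (hv i).1, map_zero]
    · have hc : Commute (TY r ^ n) (frobP JY s a l ^ N) :=
        ((commute_frobP (TY r) s (hTs r) a l).pow_left n).pow_right N
      have := congrArg (fun f : Module.End ℤ JY => f (v i)) hc.eq
      simp only [Module.End.mul_apply] at this
      rw [← this, (hv i).2, map_zero]
    · have : ∀ i, io i ((TY r ^ n) (v i)) = (TX r ^ n) (io i (v i)) := fun i =>
        io_pow_of_ptors p (io i) (TX r) (TY r) (hioT r i) n (v i) ⟨k, (hv i).1⟩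
      simp only [this]
      rw [← map_sum, ← hxv, hn]
  · choose k hk using fun i => (hv i).1
    choose N hN using fun i => nilY (v i) (hv i)
    refine (main (∑ i, k i) (∑ i, N i)).2 v (fun i => ⟨?_, ?_⟩) h0
    · exact pow_nsmul_eq_zero_of_le (Finset.single_le_sum (fun _ _ => Nat.zero_le _)
        (Finset.mem_univ i)) (hk i)
    · exact end_pow_eq_zero_of_le _ (Finset.single_le_sum (fun _ _ => Nat.zero_le _)
        (Finset.mem_univ i)) (hN i)

end Main

section Nil

variable {G J : Type*} [Group G] [AddCommGroup J] [DistribMulAction G J]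

/-- Cayley-Hamilton: if `s² - t s + l = 0` with `t` commuting with `s`, then `s² - a s + l = (t - a) s`, so
`(t - a)^n x = 0` implies `(s² - a s + l)^n x = 0`. -/
theorem frobP_pow_eq_zero (s : G) (t : Module.End ℤ J) (hcomm : ∀ x, t (s • x) = s • t x) (a l : ℤ)
    (hCH : ∀ x : J, s • s • x - t (s • x) + l • x = 0) (n : ℕ) (x : J)
    (hn : ((t - a • 1) ^ n : Module.End ℤ J) x = 0) : (frobP J s a l ^ n) x = 0 := by
  have hc : Commute t (actEnd J s) := LinearMap.ext hcomm
  have e : frobP J s a l = (t - a • 1) * actEnd J s := by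
    apply LinearMap.ext
    intro y
    have := hCH y
    rw [frobP_apply]
    simp only [Module.End.mul_apply, LinearMap.sub_apply, LinearMap.smul_apply, Module.End.one_apply,
      actEnd_apply]
    have h2 : s • s • y = t (s • y) - l • y := by
      rw [eq_sub_iff_add_eq, ← sub_eq_zero]
      rw [← this]; abel
    rw [h2]; abel
  have hc2 : Commute (t - a • 1) (actEnd J s) :=
    hc.sub_left ((Commute.one_left _).smul_left a)
  rw [e, hc2.mul_pow, (hc2.pow_pow n n).eq, Module.End.mul_apply, hn, map_zero]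

/-- transfer of `frobP` to a stable subgroup -/
theorem coe_frobP_pow {X : AddSubgroup J} [DistribMulAction G X]
    (hX : ∀ (g : G) (x : X), ((g • x : X) : J) = g • (x : J)) (s : G) (a l : ℤ) (n : ℕ) (x : X) :
    (((frobP X s a l ^ n) x : X) : J) = (frobP J s a l ^ n) (x : J) := by
  induction n generalizing x with
  | zero => rfl
  | succ n ih =>
    rw [pow_succ _ n, pow_succ _ n, Module.End.mul_apply, Module.End.mul_apply, ih]
    congr 1
    rw [frobP_apply, frobP_apply]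
    simp [hX]

/-- on `I`-fixed elements `s` may be changed by an element of `I` -/
theorem frobP_pow_mul_of_fixed (I : Subgroup G) (s τ : G) (hsI : ∀ τ ∈ I, s⁻¹ * τ * s ∈ I)
    (hτ : τ ∈ I) (a l : ℤ) (n : ℕ) (x : J) (hx : ∀ τ ∈ I, τ • x = x) :
    (frobP J (s * τ) a l ^ n) x = (frobP J s a l ^ n) x := by
  have hfix : ∀ y : J, (∀ τ ∈ I, τ • y = y) → ∀ τ ∈ I, τ • (s • y) = s • y := by
    intro y hy σ hσ
    calc σ • s • y = s • ((s⁻¹ * σ * s) • y) := by
          rw [← mul_smul, ← mul_smul]; congr 1; group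
      _ = s • y := by rw [hy _ (hsI σ hσ)]
  have h1 : ∀ y : J, (∀ τ ∈ I, τ • y = y) → frobP J (s * τ) a l y = frobP J s a l y := by
    intro y hy
    have e : (s * τ) • y = s • y := by rw [mul_smul, hy τ hτ]
    have e' : (s * τ) • (s • y) = s • s • y := by rw [mul_smul, hfix y hy τ hτ]
    rw [frobP_apply, frobP_apply, e, e']
  have h2 : ∀ y : J, (∀ τ ∈ I, τ • y = y) → ∀ τ ∈ I, τ • (frobP J s a l y) = frobP J s a l y := by
    intro y hy σ hσ
    rw [frobP_apply, smul_add, smul_sub, smul_zsmul_comm', smul_zsmul_comm',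
      hfix _ (hfix y hy) σ hσ, hfix y hy σ hσ, hy σ hσ]
  induction n generalizing x with
  | zero => rfl
  | succ n ih =>
    rw [pow_succ _ n, pow_succ _ n, Module.End.mul_apply, Module.End.mul_apply, h1 x hx,
      ih _ (h2 x hx)]

end Nil

end Fermat.Agent.RIB
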